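import Fermat.Agent.LT.CFT.H681.DictSpec

/-!
# LT / tower CFT, leaf `CFT.14.3` : `EmbedC`  (helper681)

Transport of the ray statement from the embedded number field `j K ⊆ ℚ̄` to `(K, j)`.
-/

set_option autoImplicit false

noncomputable section

namespace Fermat.Agent.LT.CFT.H681

open Fermat.Agent.S55.G.Rec Fermat.Agent.LT.CFT groupCohomology NumberField IsDedekindDomain
open scoped NumberField WithZero

local notation "Qb" => AlgebraicClosure ℚ
local notation "GQ" => (AlgebraicClosure ℚ ≃ₐ[ℚ] AlgebraicClosure ℚ)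

/-! ## Primes under a ring isomorphism -/

section Primes

variable {R S : Type*} [CommRing R] [CommRing S] [IsDedekindDomain R] [IsDedekindDomain S]

/-- The image of a prime under a ring isomorphism. -/
def hosMap681 (e : R ≃+* S) (v : HeightOneSpectrum R) : HeightOneSpectrum S where
  asIdeal := Ideal.comap (e.symm : S →+* R) v.asIdeal
  isPrime := Ideal.comap_isPrime _ _
  ne_bot := by
    intro h
    obtain ⟨x, hx, hx0⟩ := Submodule.exists_mem_ne_zero_of_ne_bot v.ne_bot
    have h1 : e x ∈ Ideal.comap (e.symm : S →+* R) v.asIdeal := by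
      rw [Ideal.mem_comap]
      show e.symm (e x) ∈ v.asIdeal
      rw [RingEquiv.symm_apply_apply]
      exact hx
    rw [h, Ideal.mem_bot] at h1
    exact hx0 ((map_eq_zero_iff e e.injective).mp h1)

lemma mem_hosMap681 (e : R ≃+* S) (v : HeightOneSpectrum R) (y : S) :
    y ∈ (hosMap681 e v).asIdeal ↔ e.symm y ∈ v.asIdeal := Iff.rfl

lemma hosMap681_symm (e : R ≃+* S) (v : HeightOneSpectrum R) :
    hosMap681 e.symm (hosMap681 e v) = v := by
  apply HeightOneSpectrum.ext
  ext x
  rw [mem_hosMap681, mem_hosMap681, RingEquiv.symm_symm, RingEquiv.symm_apply_apply]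

/-- The bijection between the primes. -/
def hosEquiv681 (e : R ≃+* S) : HeightOneSpectrum R ≃ HeightOneSpectrum S where
  toFun := hosMap681 e
  invFun := hosMap681 e.symm
  left_inv := hosMap681_symm e
  right_inv := fun w => by
    have h := hosMap681_symm e.symm w
    rwa [RingEquiv.symm_symm] at h

lemma hosMap681_asIdeal_eq_map (e : R ≃+* S) (v : HeightOneSpectrum R) :
    (hosMap681 e v).asIdeal = v.asIdeal.map (e : R →+* S) :=
  (Ideal.map_comap_of_equiv e).symm

lemma mem_hosMap681_pow (e : R ≃+* S) (v : HeightOneSpectrum R) (k : ℕ) (x : R) :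
    e x ∈ (hosMap681 e v).asIdeal ^ k ↔ x ∈ v.asIdeal ^ k := by
  rw [hosMap681_asIdeal_eq_map, ← Ideal.map_pow, Ideal.map_comap_of_equiv, Ideal.mem_comap]
  show e.symm (e x) ∈ _ ↔ _
  rw [RingEquiv.symm_apply_apply]

lemma card_quot_hosMap681 (e : R ≃+* S) (v : HeightOneSpectrum R) :
    Nat.card (S ⧸ (hosMap681 e v).asIdeal) = Nat.card (R ⧸ v.asIdeal) :=
  (Nat.card_congr (Ideal.quotientEquiv v.asIdeal (hosMap681 e v).asIdeal e
    (hosMap681_asIdeal_eq_map e v)).toEquiv).symm

end Primes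

/-! ## Orders -/

lemma le_ordAt_iff681 {K : Type} [Field K] [NumberField K] (v : HeightOneSpectrum (𝓞 K))
    (α : 𝓞 K) (hα : α ≠ 0) (k : ℕ) : k ≤ ordAt v α ↔ α ∈ v.asIdeal ^ k := by
  rw [← v.intValuation_le_pow_iff_mem, v.intValuation_if_neg hα, WithZero.exp_le_exp]
  unfold ordAt
  omega

lemma ordAt_hosMap681 {K L : Type} [Field K] [NumberField K] [Field L] [NumberField L]
    (e : 𝓞 K ≃+* 𝓞 L) (v : HeightOneSpectrum (𝓞 K)) (α : 𝓞 K) (hα : α ≠ 0) :
    ordAt (hosMap681 e v) (e α) = ordAt v α := by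
  have hα' : e α ≠ 0 := fun h => hα ((map_eq_zero_iff e e.injective).mp h)
  apply le_antisymm
  · rw [le_ordAt_iff681 v α hα, ← mem_hosMap681_pow e, ← le_ordAt_iff681 _ _ hα']
  · rw [le_ordAt_iff681 _ _ hα', mem_hosMap681_pow e, ← le_ordAt_iff681 v α hα]

/-! ## The embedded field -/

section Emb

variable {K : Type} [Field K] [NumberField K] (j : K →+* Qb)

/-- The image of `K` in `ℚ̄`. -/
def embField681 : IntermediateField ℚ Qb := (j.toRatAlgHom).fieldRange

lemma mem_embField681 (y : Qb) : y ∈ embField681 j ↔ ∃ x : K, j x = y := Iff.rfl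

instance finiteDimensional_embField681 : FiniteDimensional ℚ (embField681 j) :=
  (LinearMap.finiteDimensional_range (j.toRatAlgHom).toLinearMap :)

instance numberField_embField681 : NumberField (embField681 j) := ⟨⟩

/-- `K → j K`. -/
def embHom681 : K →+* embField681 j where
  toFun x := ⟨j x, ⟨x, rfl⟩⟩
  map_one' := Subtype.ext (map_one j)
  map_mul' a b := Subtype.ext (map_mul j a b)
  map_zero' := Subtype.ext (map_zero j)
  map_add' a b := Subtype.ext (map_add j a b)

/-- `K ≃ j K`. -/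
def embEquiv681 : K ≃+* embField681 j :=
  RingEquiv.ofBijective (embHom681 j)
    ⟨(embHom681 j).injective, fun y => by
      obtain ⟨x, hx⟩ := (mem_embField681 j y.1).mp y.2
      exact ⟨x, Subtype.ext hx⟩⟩

lemma embEquiv681_coe (x : K) : ((embEquiv681 j x : embField681 j) : Qb) = j x := rfl

/-- `𝓞 K ≃ 𝓞 (j K)`. -/
def embO681 : 𝓞 K ≃+* 𝓞 (embField681 j) := RingOfIntegers.mapRingEquiv (embEquiv681 j)

lemma embO681_coe (x : 𝓞 K) :
    algebraMap (embField681 j) Qb (algebraMap (𝓞 (embField681 j)) (embField681 j)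
      (embO681 j x)) = j (algebraMap (𝓞 K) K x) := rfl

lemma galOf_eq681 : galOf j = (embField681 j).fixingSubgroup := by
  ext σ
  constructor
  · intro h
    rw [IntermediateField.mem_fixingSubgroup_iff]
    intro y hy
    obtain ⟨x, rfl⟩ := (mem_embField681 j y).mp hy
    exact h x
  · intro h x
    exact (IntermediateField.mem_fixingSubgroup_iff _ σ).1 h _ ⟨x, rfl⟩

lemma totallyComplex_embField681 (h : TotallyComplex K) : TotallyComplex (embField681 j) := by
  intro w
  exact InfinitePlace.IsComplex.of_comap ((embEquiv681 j : K ≃+* embField681 j) : K →+* _)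
    (h _)

/-- Frobenius elements correspond. -/
lemma isFrobAt_hosMap681 (v : HeightOneSpectrum (𝓞 K)) (σ : GQ) (h : IsFrobAt j v σ) :
    IsFrobAt (algebraMap (embField681 j) Qb) (hosMap681 (embO681 j) v) σ := by
  obtain ⟨hσ, A, hA, hF⟩ := h
  refine ⟨?_, A, ?_, ?_⟩
  · rw [galOf_algebraMap681, ← galOf_eq681]
    exact hσ
  · intro y
    obtain ⟨x, rfl⟩ := (embO681 j).surjective y
    rw [mem_hosMap681, RingEquiv.symm_apply_apply, hA x, embO681_coe]
  · rw [card_quot_hosMap681]
    exact hF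

end Emb

/-! ## The leaf -/

theorem embed681 : EmbedC := by
  intro hyp K _ _ j hTC χ hχ
  obtain ⟨F, hF, hχF⟩ := hχ
  have hU : galOf j = (embField681 j).fixingSubgroup := galOf_eq681 j
  set χ' : ↥(embField681 j).fixingSubgroup →* ℂˣ :=
    χ.comp (Subgroup.inclusion (le_of_eq hU.symm)) with hχ'
  obtain ⟨𝔣', h𝔣', hray⟩ := hyp (embField681 j) (totallyComplex_embField681 j hTC) χ'
    ⟨F, hF, fun σ hσ => hχF _ hσ⟩
  set e := embO681 j with he
  refine ⟨Ideal.comap (e : 𝓞 K →+* 𝓞 (embField681 j)) 𝔣', ?_, ?_⟩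
  · intro h
    obtain ⟨y, hy, hy0⟩ := Submodule.exists_mem_ne_zero_of_ne_bot h𝔣'
    have h1 : e.symm y ∈ Ideal.comap (e : 𝓞 K →+* 𝓞 (embField681 j)) 𝔣' := by
      rw [Ideal.mem_comap]
      show e (e.symm y) ∈ 𝔣'
      rw [RingEquiv.apply_symm_apply]
      exact hy
    rw [h, Ideal.mem_bot] at h1
    exact hy0 ((map_eq_zero_iff e.symm e.symm.injective).mp h1)
  intro frob hfrob α hα hα1
  set frob' : HeightOneSpectrum (𝓞 (embField681 j)) → ↥(embField681 j).fixingSubgroup :=
    fun w => Subgroup.inclusion (le_of_eq hU) (frob ((hosEquiv681 e).symm w)) with hfrob'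
  have hle : ∀ v : HeightOneSpectrum (𝓞 K),
      𝔣' ≤ (hosMap681 e v).asIdeal ↔
        Ideal.comap (e : 𝓞 K →+* 𝓞 (embField681 j)) 𝔣' ≤ v.asIdeal := by
    intro v
    constructor
    · intro h x hx
      have h1 := h (Ideal.mem_comap.mp hx)
      rw [mem_hosMap681] at h1
      have h2 : e.symm (e x) = x := RingEquiv.symm_apply_apply e x
      have h3 : e.symm ((e : 𝓞 K →+* 𝓞 (embField681 j)) x) = x := h2
      rwa [h3] at h1
    · intro h y hy
      rw [mem_hosMap681]
      apply h
      rw [Ideal.mem_comap]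
      show e (e.symm y) ∈ 𝔣'
      rw [RingEquiv.apply_symm_apply]
      exact hy
  have h1 := hray frob' (fun w hw => by
    have hw' : w = hosMap681 e ((hosEquiv681 e).symm w) := ((hosEquiv681 e).apply_symm_apply w).symm
    have hnot : ¬ Ideal.comap (e : 𝓞 K →+* 𝓞 (embField681 j)) 𝔣' ≤
        ((hosEquiv681 e).symm w).asIdeal := by
      rw [← hle, ← hw']
      exact hw
    have h2 := isFrobAt_hosMap681 j _ _ (hfrob _ hnot)
    rw [← hw'] at h2
    exact h2) (e α) (fun h => hα ((map_eq_zero_iff e e.injective).mp h)) (by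
      have h2 : e α - 1 = e (α - 1) := by rw [map_sub, map_one]
      rw [h2]
      exact Ideal.mem_comap.mp hα1)
  rw [← h1.2, ← finprod_comp_equiv (hosEquiv681 e)]
  refine finprod_congr fun v => ?_
  have h3 : (hosEquiv681 e) v = hosMap681 e v := rfl
  rw [h3, ordAt_hosMap681 e v α hα]
  congr 1
  show χ (frob v) = χ (Subgroup.inclusion (le_of_eq hU.symm)
    (Subgroup.inclusion (le_of_eq hU) (frob ((hosEquiv681 e).symm (hosMap681 e v)))))
  have h4 : (hosEquiv681 e).symm (hosMap681 e v) = v := (hosEquiv681 e).symm_apply_apply v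
  rw [h4]
  congr 1

end Fermat.Agent.LT.CFT.H681
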