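import Fermat.Agent.LT.CFT.H681.DictSpec

/-!
# LT / tower CFT, leaf `CFT.14.4` : `FrobIndepC`  (helper681)

Outside the bad primes of the normal closure of the level field of `χ`, the value of `χ` on a
Prelude Frobenius element at `P` is the value on the chosen Frobenius element `FrAt681 K q P`.
-/

set_option autoImplicit false

noncomputable section

namespace Fermat.Agent.LT.CFT.H681

open Fermat.Agent.S55.G.Rec Fermat.Agent.LT.CFT groupCohomology NumberField IsDedekindDomain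
open scoped NumberField Pointwise

local notation "Qb" => AlgebraicClosure ℚ
local notation "GQ" => (AlgebraicClosure ℚ ≃ₐ[ℚ] AlgebraicClosure ℚ)

section Place

variable (q : ℕ) [Fact q.Prime]

/-- The maximal ideal of the place `(q, g)` in terms of the norm. -/
lemma mem_nonunits_smul_padicPlace_iff681 (g : GQ) (x : Qb) :
    x ∈ (g • padicPlace q).nonunits ↔ pn681 q g x < 1 := by
  rw [Fermat.Agent.Lib.Cheb.H476.mem_nonunits_smul_iff, mem_nonunits_padicPlace_iff681]
  rfl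

lemma pn681_smul_left (s g : GQ) (x : Qb) :
    pn681 q (s * g) x = pn681 q g ((s⁻¹ : GQ) x) := by
  unfold pn681
  have h1 : ((s * g)⁻¹ : GQ) x = (g⁻¹ : GQ) ((s⁻¹ : GQ) x) := by
    rw [mul_inv_rev]
    rfl
  rw [h1]

lemma liesOverPrime_padicPlace681 : (padicPlace q).LiesOverPrime q := by
  show ((q : ℕ) : Qb) ∈ (padicPlace q).nonunits
  rw [mem_nonunits_padicPlace_iff681]
  have h := pn681_natCast_self_lt_one q 1
  unfold pn681 at h
  rw [inv_one] at h
  exact h

/-- Every valuation subring of `ℚ̄` over `q` is a place `(q, g)`. -/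
lemma exists_smul_padicPlace_eq681 (A : ValuationSubring Qb) (hA : (q : Qb) ∈ A.nonunits) :
    ∃ g : GQ, g • padicPlace q = A :=
  Fermat.Agent.Lib.Cheb.H476.exists_smul_eq (Fact.out : q.Prime)
    (liesOverPrime_padicPlace681 q) hA

end Place

/-! ## Unpacking the Prelude Frobenius -/

/-- The Frobenius congruence of a Prelude Frobenius element. -/
lemma sub_pow_mem_nonunits_of_isFrobeniusAt681 {A : ValuationSubring Qb} {σ : GQ} {N : ℕ}
    (h : A.IsFrobeniusAt σ N) (x : Qb) (hx : x ∈ A) : σ x - x ^ N ∈ A.nonunits := by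
  have h1 := h.smul_residue_eq (IsLocalRing.residue A ⟨x, hx⟩)
  rw [← IsLocalRing.ResidueField.residue_smul, ← map_pow, ← sub_eq_zero, ← map_sub,
    IsLocalRing.residue_eq_zero_iff, ← ValuationSubring.coe_mem_nonunits_iff] at h1
  exact h1

/-- A Prelude Frobenius element stabilises the valuation subring. -/
lemma smul_eq_of_isFrobeniusAt681 {A : ValuationSubring Qb} {σ : GQ} {N : ℕ}
    (h : A.IsFrobeniusAt σ N) : σ • A = A :=
  MulAction.mem_stabilizer_iff.mp h.mem_decompositionSubgroup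

/-! ## Trivial inertia outside the bad primes -/

/-- Outside a finite set of primes, an automorphism of `ℚ̄` which is congruent to the identity
modulo a place above `q` on the algebraic integers fixes `F`. -/
theorem exists_bad_primes_fix681 (F : IntermediateField ℚ Qb) [FiniteDimensional ℚ F] :
    ∃ B : Finset ℕ, ∀ (q : ℕ) [Fact q.Prime], q ∉ B → ∀ g ρ : GQ,
      (∀ x : Qb, IsIntegral ℤ x → pn681 q g (ρ x - x) < 1) → ρ ∈ F.fixingSubgroup := by
  haveI : Algebra.IsAlgebraic ℚ Qb := AlgebraicClosure.isAlgebraic ℚ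
  haveI : IsAlgClosure ℚ Qb := ⟨inferInstance, inferInstance⟩
  haveI : Normal ℚ Qb := IsAlgClosure.normal ℚ Qb
  set L : IntermediateField ℚ Qb := IntermediateField.normalClosure ℚ F Qb with hL
  have hFL : F ≤ L := IntermediateField.le_normalClosure F
  haveI hLfd : FiniteDimensional ℚ L := normalClosure.is_finiteDimensional ℚ F Qb
  haveI hLn : Normal ℚ L := normalClosure.normal ℚ F Qb
  haveI : NumberField L := Fermat.Agent.Lib.Cheb.numberField_intermediateField956 L
  refine ⟨Fermat.Agent.Lib.Cheb.badPrimes956 L, fun q _ hqB g ρ hρ => ?_⟩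
  have hq : q.Prime := Fact.out
  have h1 : ρ.restrictNormal L = 1 := by
    refine Fermat.Agent.Lib.Cheb.eq_one_of_smul_sub_mem956 hq hqB
      (placePrime681_isPrime L q g) (natCast_mem_placePrime681 L q g) (fun z => ?_)
    rw [mem_placePrime681]
    have h2 : ((((ρ.restrictNormal L • z - z : 𝓞 L) : L)) : Qb) =
        ρ ((z : L) : Qb) - ((z : L) : Qb) := by
      have h3 : (((ρ.restrictNormal L • z : 𝓞 L) : L) : Qb) = ρ ((z : L) : Qb) :=
        AlgEquiv.restrictNormal_commutes ρ L (z : L)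
      rw [← h3]
      simp
    rw [h2]
    exact hρ _ (isIntegral_coe681 L z)
  rw [IntermediateField.mem_fixingSubgroup_iff]
  intro x hx
  have h4 := AlgEquiv.restrictNormal_commutes ρ L ⟨x, hFL hx⟩
  rw [h1] at h4
  exact h4.symm

/-! ## The leaf -/

theorem frobIndep681 : FrobIndepC := by
  intro K _ n _ χ hχ
  obtain ⟨F, hF, hconst⟩ := hχ
  haveI := hF
  obtain ⟨B, hB⟩ := exists_bad_primes_fix681 F
  refine ⟨B, fun q _ hqB P hP σ hσ => ?_⟩
  have hq : q.Prime := Fact.out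
  obtain ⟨-, A, hUnder, hFrob⟩ := hσ
  -- `A` lies over `q`
  have hqP : ((q : ℕ) : 𝓞 K) ∈ P.asIdeal := (mem_fib681 K q).mp hP
  have hqA : (q : Qb) ∈ A.nonunits := by
    have h := (hUnder _).mp hqP
    have h2 : algebraMap K Qb (algebraMap (𝓞 K) K ((q : ℕ) : 𝓞 K)) = (q : Qb) := by
      simp
    rwa [h2] at h
  obtain ⟨g', hg'⟩ := exists_smul_padicPlace_eq681 q A hqA
  have hmemA : ∀ x : Qb, x ∈ A.nonunits ↔ pn681 q g' x < 1 := by
    intro x
    rw [← hg']
    exact mem_nonunits_smul_padicPlace_iff681 q g' x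
  -- the prime of the place `(q, g')` is `P`
  have hPg' : placePrime681 K q g' = P.asIdeal := by
    ext x
    rw [mem_placePrime681, ← hmemA, hUnder x]
    rfl
  set g := gAt681 K q P with hg
  have hPg : placePrime681 K q g = P.asIdeal := placePrime_gAt681 K q hP
  obtain ⟨u, hu, d, hd, hgg⟩ :=
    exists_doubleCoset_of_placePrime_eq681 K q g g' (hPg.trans hPg'.symm)
  -- norms at `g'` in terms of `g`
  have hpn : ∀ x : Qb, pn681 q g' x = pn681 q g ((u⁻¹ : GQ) x) := by
    intro x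
    rw [hgg, pn681_mul_right q (u * g) d hd, pn681_smul_left]
  set N := Nat.card (𝓞 K ⧸ P.asIdeal) with hN
  set Fr : GQ := ((FrAt681 K q P : ↥K.fixingSubgroup) : GQ) with hFr
  have hFrU : Fr ∈ K.fixingSubgroup := (FrAt681 K q P).2
  -- the conjugate of the chosen Frobenius is a Frobenius at `g'`
  have hcongFr : ∀ x : Qb, IsIntegral ℤ x →
      pn681 q g' ((u * Fr * u⁻¹ : GQ) x - x ^ N) < 1 := by
    intro x hx
    rw [hpn]
    have h1 : (u⁻¹ : GQ) ((u * Fr * u⁻¹ : GQ) x - x ^ N) =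
        Fr ((u⁻¹ : GQ) x) - ((u⁻¹ : GQ) x) ^ N := by
      rw [map_sub, map_pow]
      congr 1
      show (u⁻¹ * (u * Fr * u⁻¹) : GQ) x = (Fr * u⁻¹ : GQ) x
      congr 1
      group
    rw [h1]
    exact frAt_cong681 K q hP _ (hx.map (u⁻¹ : GQ))
  -- the Prelude Frobenius
  have hcongσ : ∀ x : Qb, IsIntegral ℤ x → pn681 q g' ((σ : GQ) x - x ^ N) < 1 := by
    intro x hx
    rw [← hmemA]
    exact sub_pow_mem_nonunits_of_isFrobeniusAt681 hFrob x
      (Fermat.Agent.S54.isIntegral_mem_valuationSubring A hx)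
  have hstab : ∀ z : Qb, pn681 q g' (((σ : GQ)⁻¹ : GQ) z) < 1 ↔ pn681 q g' z < 1 := by
    intro z
    rw [← pn681_smul_left, ← mem_nonunits_smul_padicPlace_iff681, mul_smul, hg',
      smul_eq_of_isFrobeniusAt681 hFrob, hmemA]
  -- the quotient is congruent to the identity
  set ρ : GQ := (σ : GQ)⁻¹ * (u * Fr * u⁻¹) with hρ
  have hρcong : ∀ x : Qb, IsIntegral ℤ x → pn681 q g' (ρ x - x) < 1 := by
    intro x hx
    have h1 : ρ x - x = ((σ : GQ)⁻¹ : GQ) ((u * Fr * u⁻¹ : GQ) x - (σ : GQ) x) := by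
      rw [map_sub]
      congr 1
      show x = ((σ : GQ)⁻¹ * (σ : GQ) : GQ) x
      rw [inv_mul_cancel]
      rfl
    rw [h1, hstab]
    have h2 : (u * Fr * u⁻¹ : GQ) x - (σ : GQ) x =
        ((u * Fr * u⁻¹ : GQ) x - x ^ N) - ((σ : GQ) x - x ^ N) := by ring
    rw [h2]
    exact lt_of_le_of_lt (pn681_sub_le_max q g' _ _) (max_lt (hcongFr x hx) (hcongσ x hx))
  have hρF : ρ ∈ F.fixingSubgroup := hB q hqB g' ρ hρcong
  have hconjU : u * Fr * u⁻¹ ∈ K.fixingSubgroup :=
    K.fixingSubgroup.mul_mem (K.fixingSubgroup.mul_mem hu hFrU) (K.fixingSubgroup.inv_mem hu)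
  have hρU : ρ ∈ K.fixingSubgroup :=
    K.fixingSubgroup.mul_mem (K.fixingSubgroup.inv_mem σ.2) hconjU
  -- `χ ρ = 1`
  have hχρ : χ ⟨ρ, hρU⟩ = 1 := by
    have h := hconst 1 ⟨ρ, hρU⟩ hρF
    rw [one_mul, map_one] at h
    exact h
  have hprod : (⟨ρ, hρU⟩ : ↥K.fixingSubgroup) =
      σ⁻¹ * (⟨u, hu⟩ * FrAt681 K q P * ⟨u, hu⟩⁻¹) := by
    apply Subtype.ext
    rfl
  rw [hprod, map_mul, map_mul, map_mul, map_inv, map_inv] at hχρ
  have h3 : χ ⟨u, hu⟩ * χ (FrAt681 K q P) * (χ ⟨u, hu⟩)⁻¹ = χ (FrAt681 K q P) := by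
    rw [mul_comm (χ ⟨u, hu⟩), mul_assoc, mul_inv_cancel, mul_one]
  rw [h3] at hχρ
  exact (inv_mul_eq_one.mp hχρ)

end Fermat.Agent.LT.CFT.H681
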