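import Fermat.Agent.LT.CFT.H681.DictSpec

/-!
# LT / tower CFT, leaf `CFT.14.5` : `RayOfArtinSumC`  (helper681)

Conductor `𝔣 = (N)`, `N = ∏_{q ∈ B ∪ B₀} q ^ (e_q + 1)`; `ordAt = ordP681`; the sum over the rational
primes and the primes above them is the sum over all primes of `𝓞 K`.
-/

set_option autoImplicit false

noncomputable section

namespace Fermat.Agent.LT.CFT.H681

open Fermat.Agent.S55.G.Rec Fermat.Agent.LT.CFT groupCohomology NumberField IsDedekindDomain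
open scoped NumberField WithZero Pointwise

local notation "Qb" => AlgebraicClosure ℚ
local notation "GQ" => (AlgebraicClosure ℚ ≃ₐ[ℚ] AlgebraicClosure ℚ)

variable (K : IntermediateField ℚ Qb) [NumberField K]

/-! ## The rational prime below -/

/-- The rational prime below `P`. -/
def qOf681 (P : HeightOneSpectrum (𝓞 K)) : Nat.Primes :=
  ⟨Classical.choose (exists_prime_mem681 K P),
    (Classical.choose_spec (exists_prime_mem681 K P)).1⟩

lemma qOf681_mem (P : HeightOneSpectrum (𝓞 K)) :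
    (((qOf681 K P : Nat.Primes) : ℕ) : 𝓞 K) ∈ P.asIdeal :=
  (Classical.choose_spec (exists_prime_mem681 K P)).2

lemma prime_below_unique681 (P : HeightOneSpectrum (𝓞 K)) {q q' : ℕ} (hq : q.Prime)
    (hq' : q'.Prime) (h : (q : 𝓞 K) ∈ P.asIdeal) (h' : (q' : 𝓞 K) ∈ P.asIdeal) : q = q' := by
  by_contra hne
  have hcop : IsCoprime (q : ℤ) (q' : ℤ) :=
    Nat.isCoprime_iff_coprime.mpr ((Nat.coprime_primes hq hq').mpr hne)
  obtain ⟨a, b, hab⟩ := hcop
  have h1 : (1 : 𝓞 K) ∈ P.asIdeal := by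
    have h2 : ((a * q + b * q' : ℤ) : 𝓞 K) = 1 := by rw [hab]; simp
    rw [← h2]
    push_cast
    exact P.asIdeal.add_mem (P.asIdeal.mul_mem_left _ h) (P.asIdeal.mul_mem_left _ h')
  exact P.isPrime.ne_top ((Ideal.eq_top_iff_one _).mpr h1)

lemma mem_fib_iff_qOf681 (q : ℕ) [hq : Fact q.Prime] (P : HeightOneSpectrum (𝓞 K)) :
    P ∈ fib681 K q ↔ ((qOf681 K P : Nat.Primes) : ℕ) = q := by
  rw [mem_fib681]
  constructor
  · intro h
    exact prime_below_unique681 K P (qOf681 K P).2 hq.out (qOf681_mem K P) h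
  · intro h
    rw [← h]
    exact qOf681_mem K P

/-! ## Orders -/

lemma ordAt_cast_eq681 (P : HeightOneSpectrum (𝓞 K)) (α : 𝓞 K) (hα : α ≠ 0) :
    ((ordAt P α : ℕ) : ℤ) = ordP681 K P (α : K) := by
  unfold ordP681 ordAt
  have h : ((α : K)) = algebraMap (𝓞 K) K α := rfl
  rw [h, HeightOneSpectrum.valuation_of_algebraMap, P.intValuation_if_neg hα, WithZero.log_exp,
    neg_neg]

lemma ordAt_eq_zero681 (P : HeightOneSpectrum (𝓞 K)) (α : 𝓞 K) (hα : α ≠ 0)
    (h : α ∉ P.asIdeal) : ordAt P α = 0 := by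
  have h1 : P.intValuation α = 1 := by
    by_contra hne
    have hlt : P.intValuation α < 1 := lt_of_le_of_ne (P.intValuation_le_one α) hne
    exact h ((P.intValuation_lt_one_iff_mem α).mp hlt)
  rw [P.intValuation_if_neg hα, ← WithZero.exp_zero] at h1
  have h2 := WithZero.exp_injective h1
  unfold ordAt
  omega

/-! ## Norms of natural numbers -/

lemma pn681_natCast_le_one (q : ℕ) [Fact q.Prime] (g : GQ) (m : ℕ) :
    pn681 q g (m : Qb) ≤ 1 :=
  pn681_le_one_of_isIntegral q g (isIntegral_algebraMap (R := ℤ) (x := (m : ℤ)) |> fun h => by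
    simpa using h)

/-- The norm at `(q, g)` of an element of `N 𝓞 K`, `q ^ (e + 1) ∣ N`. -/
lemma pn681_lt_of_mem_span681 (q : ℕ) [Fact q.Prime] (g : GQ) (N e : ℕ)
    (hdvd : q ^ (e + 1) ∣ N) (x : 𝓞 K) (hx : x ∈ Ideal.span {((N : ℕ) : 𝓞 K)}) :
    pn681 q g (((x : K)) : Qb) ≤ ((q : ℝ)⁻¹) ^ (e + 1) := by
  obtain ⟨β, hβ⟩ := Ideal.mem_span_singleton'.mp hx
  obtain ⟨M, hM⟩ := hdvd
  have h1 : (((x : K)) : Qb) = (((β : K)) : Qb) * ((q : Qb) ^ (e + 1) * (M : Qb)) := by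
    rw [← hβ, hM]
    push_cast
    rfl
  rw [h1, pn681_mul, pn681_mul, pn681_pow, pn681_natCast_self]
  have hb := pn681_coe_le_one K q g β
  have hm := pn681_natCast_le_one q g M
  have hb0 := pn681_nonneg q g (((β : K)) : Qb)
  have hm0 := pn681_nonneg q g (M : Qb)
  have hq0 : (0 : ℝ) ≤ ((q : ℝ)⁻¹) ^ (e + 1) := by positivity
  calc pn681 q g (((β : K)) : Qb) * (((q : ℝ)⁻¹) ^ (e + 1) * pn681 q g (M : Qb))
      ≤ 1 * (((q : ℝ)⁻¹) ^ (e + 1) * 1) := by
        apply mul_le_mul hb _ (mul_nonneg hq0 hm0) zero_le_one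
        exact mul_le_mul_of_nonneg_left hm hq0
    _ = ((q : ℝ)⁻¹) ^ (e + 1) := by ring

lemma exists_exp681 (n : ℕ) : ∀ q : ℕ, ∃ e : ℕ, q.Prime → ((q : ℝ)⁻¹) ^ e < eps681 n q := by
  intro q
  by_cases hq : q.Prime
  · have h1 : ((q : ℝ)⁻¹) < 1 := by
      have h2 : (1 : ℝ) < q := by exact_mod_cast hq.one_lt
      exact inv_lt_one_of_one_lt₀ h2
    have h0 : (0 : ℝ) ≤ (q : ℝ)⁻¹ := by positivity
    obtain ⟨e, he⟩ := exists_pow_lt_of_lt_one (eps681_pos n q) h1
    exact ⟨e, fun _ => he⟩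
  · exact ⟨0, fun h => absurd h hq⟩

/-! ## The leaf -/

theorem rayOfArtinSum681 : RayOfArtinSumC := by
  intro K _ n _ χ B B₀ hart hfrob
  classical
  choose e he using exists_exp681 n
  set S : Finset ℕ := (B ∪ B₀).filter Nat.Prime with hS
  set N : ℕ := ∏ q ∈ S, q ^ (e q + 1) with hN
  have hN0 : N ≠ 0 := by
    rw [hN]
    refine Finset.prod_ne_zero_iff.mpr fun q hq => ?_
    exact pow_ne_zero _ (Finset.mem_filter.mp hq).2.ne_zero
  have hdvd : ∀ q ∈ B ∪ B₀, q.Prime → q ^ (e q + 1) ∣ N := by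
    intro q hq hqp
    exact Finset.dvd_prod_of_mem (fun q => q ^ (e q + 1)) (Finset.mem_filter.mpr ⟨hq, hqp⟩)
  refine ⟨Ideal.span {((N : ℕ) : 𝓞 K)}, ?_, ?_⟩
  · rw [Ne, Ideal.span_singleton_eq_bot]
    exact_mod_cast hN0
  intro frob hfrobAt α hα hα1
  -- closeness at the primes of `B ∪ B₀`
  have hclose : ∀ q ∈ B ∪ B₀, ∀ [Fact q.Prime] (g : GQ),
      pn681 q g ((((α : K)) : Qb) - 1) ≤ ((q : ℝ)⁻¹) ^ (e q + 1) := by
    intro q hq hqf g
    have h1 : (((α : K)) : Qb) - 1 = ((((α - 1 : 𝓞 K) : K)) : Qb) := by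
      push_cast
      rfl
    rw [h1]
    exact pn681_lt_of_mem_span681 K q g N (e q) (hdvd q hq hqf.out) (α - 1) hα1
  have hpowlt : ∀ q : ℕ, q.Prime → ((q : ℝ)⁻¹) ^ (e q + 1) < eps681 n q ∧
      ((q : ℝ)⁻¹) ^ (e q + 1) < 1 := by
    intro q hq
    have h1 : ((q : ℝ)⁻¹) < 1 := by
      have h2 : (1 : ℝ) < q := by exact_mod_cast hq.one_lt
      exact inv_lt_one_of_one_lt₀ h2
    have h0 : (0 : ℝ) ≤ (q : ℝ)⁻¹ := by positivity
    constructor
    · calc ((q : ℝ)⁻¹) ^ (e q + 1) ≤ ((q : ℝ)⁻¹) ^ (e q) :=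
            pow_le_pow_of_le_one h0 h1.le (Nat.le_succ _)
        _ < eps681 n q := he q hq
    · exact pow_lt_one₀ h0 h1 (Nat.succ_ne_zero _)
  obtain ⟨-, hsum⟩ := hart α hα (fun q hq hqf g =>
    lt_of_le_of_lt (hclose q (Finset.mem_union_left _ hq) g) (hpowlt q hqf.out).1)
  -- the primes dividing `α`
  have hα0 : Ideal.span {α} ≠ 0 := by
    intro h
    exact hα (Ideal.span_singleton_eq_bot.mp h)
  set s : Finset (HeightOneSpectrum (𝓞 K)) := (Ideal.finite_factors hα0).toFinset with hs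
  have hsmem : ∀ P : HeightOneSpectrum (𝓞 K), P ∈ s ↔ α ∈ P.asIdeal := by
    intro P
    rw [hs, Set.Finite.mem_toFinset, Set.mem_setOf_eq, Ideal.dvd_span_singleton]
  have hord0 : ∀ P : HeightOneSpectrum (𝓞 K), P ∉ s → ordAt P α = 0 := by
    intro P hP
    exact ordAt_eq_zero681 K P α hα (fun h => hP ((hsmem P).mpr h))
  have hsupp : (Function.mulSupport fun P : HeightOneSpectrum (𝓞 K) =>
      χ (frob P) ^ ordAt P α) ⊆ ↑s := by
    intro P hP
    by_contra hPs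
    apply hP
    show χ (frob P) ^ ordAt P α = 1
    rw [hord0 P hPs, pow_zero]
  refine ⟨s.finite_toSet.subset hsupp, ?_⟩
  rw [finprod_eq_prod_of_mulSupport_subset _ hsupp]
  apply Multiplicative.toAdd.injective
  rw [toAdd_prod, toAdd_one]
  -- the local terms
  set t : Nat.Primes → HeightOneSpectrum (𝓞 K) → ZMod n := fun q P =>
    haveI : Fact (q : ℕ).Prime := ⟨q.2⟩
    if (q : ℕ) ∈ B then 0 else ordP681 K P (α : K) • chiAdd χ (FrAt681 K (q : ℕ) P) with ht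
  have hT : ∀ q : Nat.Primes, artinSum681 K χ B α q =
      haveI : Fact (q : ℕ).Prime := ⟨q.2⟩
      ∑ P ∈ fib681 K (q : ℕ), t q P := fun q => rfl
  -- primes dividing the conductor
  have hunit : ∀ P : HeightOneSpectrum (𝓞 K), Ideal.span {((N : ℕ) : 𝓞 K)} ≤ P.asIdeal →
      ordAt P α = 0 := by
    intro P hP
    refine ordAt_eq_zero681 K P α hα (fun h => ?_)
    have h1 : (1 : 𝓞 K) ∈ P.asIdeal := by
      have h2 : (1 : 𝓞 K) = α - (α - 1) := by ring
      rw [h2]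
      exact P.asIdeal.sub_mem h (hP hα1)
    exact P.isPrime.ne_top ((Ideal.eq_top_iff_one _).mpr h1)
  have hgood : ∀ P : HeightOneSpectrum (𝓞 K), ¬ Ideal.span {((N : ℕ) : 𝓞 K)} ≤ P.asIdeal →
      ((qOf681 K P : Nat.Primes) : ℕ) ∉ B ∪ B₀ := by
    intro P hP hq
    apply hP
    rw [Ideal.span_singleton_le_iff_mem]
    obtain ⟨M, hM⟩ := hdvd _ hq (qOf681 K P).2
    rw [hM]
    push_cast
    apply Ideal.mul_mem_right
    rw [pow_succ]
    exact Ideal.mul_mem_left _ _ (qOf681_mem K P)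
  have hterm : ∀ P : HeightOneSpectrum (𝓞 K),
      Multiplicative.toAdd (χ (frob P) ^ ordAt P α) = t (qOf681 K P) P := by
    intro P
    haveI : Fact ((qOf681 K P : Nat.Primes) : ℕ).Prime := ⟨(qOf681 K P).2⟩
    rw [toAdd_pow]
    show ordAt P α • chiAdd χ (frob P) =
      if ((qOf681 K P : Nat.Primes) : ℕ) ∈ B then 0 else
        ordP681 K P (α : K) • chiAdd χ (FrAt681 K ((qOf681 K P : Nat.Primes) : ℕ) P)
    rw [← ordAt_cast_eq681 K P α hα, natCast_zsmul]
    by_cases hP : Ideal.span {((N : ℕ) : 𝓞 K)} ≤ P.asIdeal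
    · rw [hunit P hP, zero_smul, zero_smul, ite_self]
    · have hq := hgood P hP
      have hqB : ((qOf681 K P : Nat.Primes) : ℕ) ∉ B := fun h => hq (Finset.mem_union_left _ h)
      have hqB₀ : ((qOf681 K P : Nat.Primes) : ℕ) ∉ B₀ :=
        fun h => hq (Finset.mem_union_right _ h)
      rw [if_neg hqB]
      have hPfib : P ∈ fib681 K ((qOf681 K P : Nat.Primes) : ℕ) :=
        (mem_fib_iff_qOf681 K _ P).mpr rfl
      have h1 := hfrob _ hqB₀ P hPfib (frob P) (hfrobAt P hP)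
      unfold chiAdd
      rw [h1]
  rw [Finset.sum_congr rfl (fun P _ => hterm P)]
  -- re-indexing
  have hfib : ∀ (q : Nat.Primes) (P : HeightOneSpectrum (𝓞 K)),
      (haveI : Fact (q : ℕ).Prime := ⟨q.2⟩; P ∈ fib681 K (q : ℕ)) ↔ qOf681 K P = q := by
    intro q P
    haveI : Fact (q : ℕ).Prime := ⟨q.2⟩
    rw [mem_fib_iff_qOf681 K (q : ℕ) P]
    exact ⟨fun h => Subtype.ext h, fun h => congrArg Subtype.val h⟩
  have htzero : ∀ (q : Nat.Primes) (P : HeightOneSpectrum (𝓞 K)), P ∉ s → t q P = 0 := by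
    intro q P hP
    show (if (q : ℕ) ∈ B then 0 else ordP681 K P (α : K) • chiAdd χ _) = 0
    rw [← ordAt_cast_eq681 K P α hα, hord0 P hP]
    simp
  have hsuppT : Function.support (artinSum681 K χ B α) ⊆ ↑(s.image (qOf681 K)) := by
    intro q hq
    by_contra hqs
    apply hq
    rw [hT q]
    refine Finset.sum_eq_zero fun P hP => ?_
    apply htzero
    intro hPs
    apply hqs
    rw [Finset.mem_coe, Finset.mem_image]
    exact ⟨P, hPs, (hfib q P).mp hP⟩
  rw [finsum_eq_sum_of_support_subset _ hsuppT] at hsum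
  rw [← hsum]
  symm
  refine Finset.sum_image' (fun P => t (qOf681 K P) P) (fun P₀ hP₀ => ?_)
  rw [hT]
  have hsub : s.filter (fun P => qOf681 K P = qOf681 K P₀) ⊆
      (haveI : Fact ((qOf681 K P₀ : Nat.Primes) : ℕ).Prime := ⟨(qOf681 K P₀).2⟩;
        fib681 K ((qOf681 K P₀ : Nat.Primes) : ℕ)) := by
    intro P hP
    exact (hfib _ P).mpr (Finset.mem_filter.mp hP).2
  rw [← Finset.sum_subset hsub]
  · refine Finset.sum_congr rfl fun P hP => ?_
    rw [(Finset.mem_filter.mp hP).2]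
  · intro P hP hPs
    apply htzero
    intro h
    exact hPs (Finset.mem_filter.mpr ⟨h, (hfib _ P).mp hP⟩)

end Fermat.Agent.LT.CFT.H681
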