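import Fermat.Agent.LT.CFT.H681.Dict3

/-!
# LT / tower CFT : EMBEDDED ARTIN RECIPROCITY, ideal-theoretic form  (helper681)

`K` a number field inside `ℚ̄`, `U = Gal(ℚ̄/K)`, `χ : U → ℤ/n` a continuous character.

* `fib681 K q` : the finite set of primes of `𝓞 K` above `q`;
* `gAt681 K q P` : a chosen `g ∈ G_ℚ` whose place `(q, g)` has prime `P`;
* `reps681 K` : the system of place representatives `{gAt681 K q P | P ∣ q}`, `isPlaceReps681`;
* `frobAt681 K q g` : a chosen Frobenius element of `locSub q g U`; `FrAt681 K q P ∈ U` the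
  Frobenius element at `P` (`frAt_cong681` : the Frobenius congruence modulo a place above `P`);
* `ordP681 P α = v_P (α)`;
* **`artin_of_sumInv681`** : from `∑_v inv_v (a ∪ δχ) = 0` (all `a ∈ Kˣ`), for nonzero `α ∈ 𝓞 K`
  close to `1` at the bad primes `B`:
  `∑_{q ∉ B} ∑_{P ∣ q} v_P (α) • χ (Frob_P) = 0` in `ℤ/n`;
* **`artin_odd681`** : unconditional for `n = p ^ k`, `p` an odd prime (main `reciprocityFull`).
-/

set_option autoImplicit false

noncomputable section

namespace Fermat.Agent.LT.CFT.H681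

open Fermat.Agent.S55.G.Rec groupCohomology NumberField IsDedekindDomain
open scoped NumberField WithZero Pointwise

local notation "Qb" => AlgebraicClosure ℚ
local notation "GQ" => (AlgebraicClosure ℚ ≃ₐ[ℚ] AlgebraicClosure ℚ)

variable (K : IntermediateField ℚ Qb) [NumberField K]

/-! ## Primes above `q` and place representatives -/

section Reps

variable (q : ℕ) [Fact q.Prime]

lemma span_natCast_ne_zero681 : Ideal.span {((q : ℕ) : 𝓞 K)} ≠ 0 := by
  intro h
  have h1 : ((q : ℕ) : 𝓞 K) = 0 := Ideal.span_singleton_eq_bot.mp h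
  exact (Nat.cast_ne_zero.mpr (Fact.out : q.Prime).ne_zero) h1

/-- The primes of `𝓞 K` above `q`. -/
def fib681 : Finset (HeightOneSpectrum (𝓞 K)) :=
  (Ideal.finite_factors (span_natCast_ne_zero681 K q)).toFinset

lemma mem_fib681 {P : HeightOneSpectrum (𝓞 K)} :
    P ∈ fib681 K q ↔ ((q : ℕ) : 𝓞 K) ∈ P.asIdeal := by
  unfold fib681
  rw [Set.Finite.mem_toFinset, Set.mem_setOf_eq, Ideal.dvd_span_singleton]

lemma placeV_mem_fib681 (g : GQ) : placeV681 K q g ∈ fib681 K q :=
  (mem_fib681 K q).mpr (natCast_mem_placePrime681 K q g)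

open Classical in
/-- A chosen `g` whose place `(q, g)` of `K` has prime `P` (junk `1` if `P ∤ q`). -/
def gAt681 (P : HeightOneSpectrum (𝓞 K)) : GQ :=
  if h : ((q : ℕ) : 𝓞 K) ∈ P.asIdeal then
    Classical.choose (exists_placePrime_eq681 K q P.asIdeal P.isPrime h)
  else 1

lemma placePrime_gAt681 {P : HeightOneSpectrum (𝓞 K)} (h : P ∈ fib681 K q) :
    placePrime681 K q (gAt681 K q P) = P.asIdeal := by
  have h' := (mem_fib681 K q).mp h
  unfold gAt681
  rw [dif_pos h']
  exact Classical.choose_spec (exists_placePrime_eq681 K q P.asIdeal P.isPrime h')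

lemma placeV_gAt681 {P : HeightOneSpectrum (𝓞 K)} (h : P ∈ fib681 K q) :
    placeV681 K q (gAt681 K q P) = P :=
  HeightOneSpectrum.ext (placePrime_gAt681 K q h)

lemma gAt681_injOn : Set.InjOn (gAt681 K q) (fib681 K q : Set (HeightOneSpectrum (𝓞 K))) := by
  intro P hP P' hP' h
  rw [← placeV_gAt681 K q hP, ← placeV_gAt681 K q hP', h]

open Classical in
/-- The place representatives above `q`. -/
def repsAt681 : Finset GQ := (fib681 K q).image (gAt681 K q)

/-- `repsAt681 K q` is a system of representatives of `U \ G_ℚ / D_q`. -/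
theorem isDoubleCosetReps681 :
    IsDoubleCosetReps K.fixingSubgroup (localGaloisToGlobal q).range (repsAt681 K q) := by
  classical
  intro g
  have hP := placeV_mem_fib681 K q g
  refine ⟨gAt681 K q (placeV681 K q g), ⟨Finset.mem_image_of_mem _ hP, ?_⟩, ?_⟩
  · exact exists_doubleCoset_of_placePrime_eq681 K q _ g (placePrime_gAt681 K q hP)
  · rintro r ⟨hr, u, hu, d, hd, rfl⟩
    unfold repsAt681 at hr
    obtain ⟨P', hP', rfl⟩ := Finset.mem_image.mp hr
    have h1 : placePrime681 K q (u * gAt681 K q P' * d) = P'.asIdeal := by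
      rw [placePrime681_doubleCoset K q _ u d hu hd, placePrime_gAt681 K q hP']
    have h2 : placeV681 K q (u * gAt681 K q P' * d) = P' := HeightOneSpectrum.ext h1
    rw [h2]

end Reps

/-- The system of place representatives of `K`. -/
def reps681 : Nat.Primes → Finset GQ := fun q =>
  haveI : Fact (q : ℕ).Prime := ⟨q.2⟩
  repsAt681 K (q : ℕ)

theorem isPlaceReps681 : IsPlaceReps K.fixingSubgroup (reps681 K) := by
  intro q
  haveI : Fact (q : ℕ).Prime := ⟨q.2⟩
  exact isDoubleCosetReps681 K (q : ℕ)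

/-! ## Frobenius elements -/

section Frob

variable (q : ℕ) [Fact q.Prime] (g : GQ)

lemma exists_frob681 :
    ∃ (f : ℕ) (φ : ↥(locSub q g K.fixingSubgroup)),
      IsResidueDegree q (locSub q g K.fixingSubgroup) f ∧
      ∀ x : PadicAlgCl q, ‖x‖ ≤ 1 →
        ‖(φ : PadicAlgCl q ≃ₐ[ℚ_[q]] PadicAlgCl q) x - x ^ (q ^ f)‖ < 1 := by
  obtain ⟨f, φ, π, hf, hφV, hφ, -⟩ := H931.localStructure q (locSub q g K.fixingSubgroup)
    (H181.isOpenL_locSub q g (isOpenQ_fixingSubgroup681 K))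
  exact ⟨f, ⟨φ, hφV⟩, hf, hφ⟩

/-- The residue degree of the place `(q, g)`. -/
def fAt681 : ℕ := Classical.choose (exists_frob681 K q g)

/-- A chosen Frobenius element of the place `(q, g)`. -/
def frobAt681 : ↥(locSub q g K.fixingSubgroup) :=
  Classical.choose (Classical.choose_spec (exists_frob681 K q g))

lemma fAt681_spec : IsResidueDegree q (locSub q g K.fixingSubgroup) (fAt681 K q g) :=
  (Classical.choose_spec (Classical.choose_spec (exists_frob681 K q g))).1

lemma frobAt681_spec : ∀ x : PadicAlgCl q, ‖x‖ ≤ 1 →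
    ‖((frobAt681 K q g : ↥(locSub q g K.fixingSubgroup)) :
      PadicAlgCl q ≃ₐ[ℚ_[q]] PadicAlgCl q) x - x ^ (q ^ fAt681 K q g)‖ < 1 :=
  (Classical.choose_spec (Classical.choose_spec (exists_frob681 K q g))).2

/-- The Frobenius element at the place `(q, g)`, as an element of `U = Gal(ℚ̄/K)`. -/
def frG681 : ↥K.fixingSubgroup := locHom q g K.fixingSubgroup (frobAt681 K q g)

/-- The Frobenius congruence: `σ x ≡ x ^ |𝓞 K / P|` modulo the place `(q, g)` of `ℚ̄`. -/
theorem frG_cong681 (x : Qb) (hx : IsIntegral ℤ x) :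
    pn681 q g (((frG681 K q g : ↥K.fixingSubgroup) : GQ) x -
      x ^ Nat.card (𝓞 K ⧸ placePrime681 K q g)) < 1 :=
  frob_cong681 K q g (fAt681 K q g) (fAt681_spec K q g) (frobAt681 K q g)
    (frobAt681_spec K q g) x hx

/-- The Frobenius element at a prime `P` above `q`. -/
def FrAt681 (P : HeightOneSpectrum (𝓞 K)) : ↥K.fixingSubgroup := frG681 K q (gAt681 K q P)

theorem frAt_cong681 {P : HeightOneSpectrum (𝓞 K)} (hP : P ∈ fib681 K q) (x : Qb)
    (hx : IsIntegral ℤ x) :
    pn681 q (gAt681 K q P) (((FrAt681 K q P : ↥K.fixingSubgroup) : GQ) x -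
      x ^ Nat.card (𝓞 K ⧸ P.asIdeal)) < 1 := by
  have h := frG_cong681 K q (gAt681 K q P) x hx
  rw [placePrime_gAt681 K q hP] at h
  exact h

end Frob

/-! ## Orders -/

/-- `v_P (α)` as an integer (junk `0` at `α = 0`). -/
def ordP681 (P : HeightOneSpectrum (𝓞 K)) (x : K) : ℤ := -WithZero.log (P.valuation K x)

lemma ordP681_eq {P : HeightOneSpectrum (𝓞 K)} {x : K} {k : ℤ}
    (h : P.valuation K x = WithZero.exp (-k)) : ordP681 K P x = k := by
  unfold ordP681
  rw [h, WithZero.log_exp, neg_neg]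

/-- The local term at the place `(q, g)`: `v_P (a) • χ (Frob)`. -/
theorem isLocalTerm681 {n : ℕ} (χ : ↥K.fixingSubgroup →* Multiplicative (ZMod n)) (q : ℕ)
    [Fact q.Prime] (g : GQ) (a : Qbˣ) (ha : (a : Qb) ∈ K) :
    IsLocalTerm681 K.fixingSubgroup χ q g a
      (ordP681 K (placeV681 K q g) ⟨(a : Qb), ha⟩ • chiAdd χ (frG681 K q g)) := by
  have hU := isOpenQ_fixingSubgroup681 K
  have haG : GFixed K.fixingSubgroup a := by
    intro u hu
    apply Units.ext
    exact (IntermediateField.mem_fixingSubgroup_iff K u).1 hu _ ha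
  obtain ⟨f₀, φ, π, hf₀, -, -, -, -, hdec⟩ :=
    H931.localStructure q (locSub q g K.fixingSubgroup) (H181.isOpenL_locSub q g hU)
  obtain ⟨k₀, u, -, -, -, hk₀⟩ :=
    hdec (locPushMul q g a) (H496.lFixed_locPushMul q g K.fixingSubgroup a haG)
  have hff : f₀ = fAt681 K q g := H900.isResidueDegree_unique q hf₀ (fAt681_spec K q g)
  rw [hff] at hk₀
  have hv := valuation_eq_of_vdeg681 K q g a ha (fAt681 K q g) (fAt681_spec K q g) k₀ hk₀
  rw [ordP681_eq K hv]
  exact ⟨fAt681 K q g, frobAt681 K q g, k₀, fAt681_spec K q g, frobAt681_spec K q g, hk₀, rfl⟩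

/-- The contribution of the primes above `q` to the Artin sum of `α`:
`∑_{P ∣ q} v_P (α) • χ (Frob_P)` (`0` if `q ∈ B`). -/
def artinSum681 {n : ℕ} (χ : ↥K.fixingSubgroup →* Multiplicative (ZMod n)) (B : Finset ℕ)
    (α : 𝓞 K) (q : Nat.Primes) : ZMod n :=
  haveI : Fact (q : ℕ).Prime := ⟨q.2⟩
  ∑ P ∈ fib681 K (q : ℕ), if (q : ℕ) ∈ B then 0 else
    ordP681 K P (α : K) • chiAdd χ (FrAt681 K (q : ℕ) P)

/-! ## The theorem -/

/-- **Embedded Artin reciprocity**, ideal-theoretic form, from the vanishing of the sums of the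
local invariants of the cup classes `a ∪ δχ`. -/
theorem artin_of_sumInv681 (I : LocalInvSystem) (n : ℕ) [NeZero n]
    (χ : ↥K.fixingSubgroup →* Multiplicative (ZMod n))
    (hχ : IsLevelConstant₁ K.fixingSubgroup.subtype χ)
    (hrec : ∀ a : Qbˣ, GFixed K.fixingSubgroup a → ∀ R : Nat.Primes → Finset GQ,
      IsPlaceReps K.fixingSubgroup R → I.sumInv K.fixingSubgroup R (gcc K.fixingSubgroup n χ a) = 0) :
    ∃ B : Finset ℕ, ∀ α : 𝓞 K, α ≠ 0 →
      (∀ q ∈ B, ∀ [Fact q.Prime] (g : GQ),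
        pn681 q g ((((α : K)) : Qb) - 1) < eps681 n q) →
      (Function.support (artinSum681 K χ B α)).Finite ∧
      ∑ᶠ q : Nat.Primes, artinSum681 K χ B α q = 0 := by
  classical
  obtain ⟨B, hB⟩ := embRay_of_sumInv681 I (isOpenQ_fixingSubgroup681 K) n χ hχ
  refine ⟨B, fun α hα hclose => ?_⟩
  have hα0 : (((α : K)) : Qb) ≠ 0 := by
    intro h
    apply hα
    have h1 : ((α : K)) = 0 := Subtype.ext h
    exact_mod_cast h1
  set a : Qbˣ := Units.mk0 _ hα0 with ha
  have haK : (a : Qb) ∈ K := SetLike.coe_mem _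
  have haG : GFixed K.fixingSubgroup a := by
    intro u hu
    apply Units.ext
    exact (IntermediateField.mem_fixingSubgroup_iff K u).1 hu _ haK
  have hcl : ∀ q ∈ B, ∀ [Fact q.Prime] (g : GQ),
      ‖padicEmbedding q (g⁻¹ (a : Qb)) - 1‖ < eps681 n q := by
    intro q hq _ g
    have h := hclose q hq g
    unfold pn681 at h
    rw [map_sub, map_sub, map_one, map_one] at h
    exact h
  set t : Nat.Primes → GQ → ZMod n := fun q r =>
    haveI : Fact (q : ℕ).Prime := ⟨q.2⟩
    ordP681 K (placeV681 K (q : ℕ) r) ⟨(a : Qb), haK⟩ • chiAdd χ (frG681 K (q : ℕ) r) with ht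
  have hmain := hB a haG hcl (reps681 K) (hrec a haG (reps681 K) (isPlaceReps681 K)) t
    (fun q _ r _ => by
      haveI : Fact (q : ℕ).Prime := ⟨q.2⟩
      exact isLocalTerm681 K χ (q : ℕ) r a haK)
  have hfun : (fun q : Nat.Primes => ∑ r ∈ reps681 K q, if (q : ℕ) ∈ B then 0 else t q r) =
      artinSum681 K χ B α := by
    funext q
    haveI : Fact (q : ℕ).Prime := ⟨q.2⟩
    show ∑ r ∈ repsAt681 K (q : ℕ), (if (q : ℕ) ∈ B then 0 else t q r) =
      ∑ P ∈ fib681 K (q : ℕ), if (q : ℕ) ∈ B then 0 else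
        ordP681 K P (α : K) • chiAdd χ (FrAt681 K (q : ℕ) P)
    unfold repsAt681
    rw [Finset.sum_image (gAt681_injOn K (q : ℕ))]
    refine Finset.sum_congr rfl fun P hP => ?_
    by_cases hq : (q : ℕ) ∈ B
    · rw [if_pos hq, if_pos hq]
    · rw [if_neg hq, if_neg hq]
      show ordP681 K (placeV681 K (q : ℕ) (gAt681 K (q : ℕ) P)) ⟨(a : Qb), haK⟩ •
          chiAdd χ (frG681 K (q : ℕ) (gAt681 K (q : ℕ) P)) = _
      rw [placeV_gAt681 K (q : ℕ) hP]
      rfl
  rw [hfun] at hmain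
  exact hmain

/-- **Embedded Artin reciprocity, odd prime powers** (unconditional: main `reciprocityFull`). -/
theorem artin_odd681 (I : LocalInvSystem) (p : ℕ) [Fact p.Prime] (hp : p ≠ 2) (k : ℕ)
    (χ : ↥K.fixingSubgroup →* Multiplicative (ZMod (p ^ k)))
    (hχ : IsLevelConstant₁ K.fixingSubgroup.subtype χ) :
    ∃ B : Finset ℕ, ∀ α : 𝓞 K, α ≠ 0 →
      (∀ q ∈ B, ∀ [Fact q.Prime] (g : GQ),
        pn681 q g ((((α : K)) : Qb) - 1) < eps681 (p ^ k) q) →
      (Function.support (artinSum681 K χ B α)).Finite ∧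
      ∑ᶠ q : Nat.Primes, artinSum681 K χ B α q = 0 := by
  haveI : NeZero (p ^ k) := ⟨pow_ne_zero k (Fact.out : p.Prime).ne_zero⟩
  refine artin_of_sumInv681 K I (p ^ k) χ hχ fun a ha R hR => ?_
  exact (reciprocityFull I p hp K.fixingSubgroup (isOpenQ_fixingSubgroup681 K)
    (gcc K.fixingSubgroup (p ^ k) χ a)
    ⟨k, gcc_torsion681 K.fixingSubgroup (p ^ k) (NeZero.ne _) χ hχ a ha⟩ R hR).2

end Fermat.Agent.LT.CFT.H681
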