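import Fermat.Agent.LT.CFT.H681.EmbRay

/-!
# LT / tower CFT : dictionary, part 1 — places `(q, g)` of `K ⊆ ℚ̄` as primes of `𝓞 K`  (helper681)

`K` a number field inside `ℚ̄`, `q` a prime, `g ∈ G_ℚ`; the place of `K` induced by
`ι_q ∘ g⁻¹ : ℚ̄ → ℚ̄_q`.

* `pn681 q g x = ‖ι_q (g⁻¹ x)‖`, the norm of the place on `ℚ̄`;
* `placePrime681 K q g : Ideal (𝓞 K)`, `placeV681 K q g : HeightOneSpectrum (𝓞 K)`;
* `pn_eq_one_of_valuation_eq_one681` : `v x = 1 → ‖x‖ = 1`;
* `pn_eq_zpow681` : `‖x‖ = c ^ m` where `v x = exp (-m)`, `c` the norm of a `v`-uniformizer.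
-/

set_option autoImplicit false

noncomputable section

namespace Fermat.Agent.LT.CFT.H681

open Fermat.Agent.S55.G.Rec groupCohomology NumberField IsDedekindDomain
open scoped NumberField WithZero

local notation "Qb" => AlgebraicClosure ℚ
local notation "GQ" => (AlgebraicClosure ℚ ≃ₐ[ℚ] AlgebraicClosure ℚ)

/-! ## The norm of a place on `ℚ̄` -/

section Norm

variable (q : ℕ) [Fact q.Prime] (g : GQ)

/-- `x ↦ ‖ι_q (g⁻¹ x)‖`. -/
def pn681 (x : Qb) : ℝ := ‖padicEmbedding q (g⁻¹ x)‖

lemma pn681_def (x : Qb) : pn681 q g x = ‖padicEmbedding q (g⁻¹ x)‖ := rfl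

lemma pn681_zero : pn681 q g 0 = 0 := by simp [pn681]

lemma pn681_one : pn681 q g 1 = 1 := by simp [pn681]

lemma pn681_mul (x y : Qb) : pn681 q g (x * y) = pn681 q g x * pn681 q g y := by
  simp [pn681]

lemma pn681_pow (x : Qb) (m : ℕ) : pn681 q g (x ^ m) = pn681 q g x ^ m := by
  simp [pn681]

lemma pn681_inv (x : Qb) : pn681 q g x⁻¹ = (pn681 q g x)⁻¹ := by
  simp [pn681]

lemma pn681_zpow (x : Qb) (m : ℤ) : pn681 q g (x ^ m) = pn681 q g x ^ m := by
  simp [pn681]

lemma pn681_neg (x : Qb) : pn681 q g (-x) = pn681 q g x := by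
  simp [pn681]

lemma pn681_nonneg (x : Qb) : 0 ≤ pn681 q g x := norm_nonneg _

lemma pn681_pos {x : Qb} (hx : x ≠ 0) : 0 < pn681 q g x := by
  unfold pn681
  rw [norm_pos_iff]
  exact (map_ne_zero _).mpr ((map_ne_zero _).mpr hx)

lemma pn681_add_le_max (x y : Qb) : pn681 q g (x + y) ≤ max (pn681 q g x) (pn681 q g y) := by
  unfold pn681
  rw [map_add, map_add]
  exact PadicAlgCl.isNonarchimedean q _ _

lemma pn681_sub_le_max (x y : Qb) : pn681 q g (x - y) ≤ max (pn681 q g x) (pn681 q g y) := by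
  have h := pn681_add_le_max q g x (-y)
  rwa [← sub_eq_add_neg, pn681_neg] at h

lemma pn681_le_one_of_isIntegral {x : Qb} (hx : IsIntegral ℤ x) : pn681 q g x ≤ 1 :=
  H181.norm_padicEmbedding_le_one q (map_isIntegral_int (g⁻¹ : GQ) hx)

lemma pn681_natCast_self : pn681 q g (q : Qb) = (q : ℝ)⁻¹ := by
  unfold pn681
  rw [map_natCast]
  exact Fermat.Agent.S55.Bridge.norm_padicEmbedding_natCast_self q

lemma pn681_natCast_self_lt_one : pn681 q g (q : Qb) < 1 := by
  rw [pn681_natCast_self]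
  have hq : (1 : ℝ) < q := by exact_mod_cast (Fact.out : q.Prime).one_lt
  exact inv_lt_one_of_one_lt₀ hq

end Norm

/-! ## The prime of `𝓞 K` at a place -/

section Prime

variable (K : IntermediateField ℚ Qb) [NumberField K] (q : ℕ) [Fact q.Prime] (g : GQ)

lemma isIntegral_coe681 (x : 𝓞 K) : IsIntegral ℤ (((x : K) : Qb)) :=
  map_isIntegral_int K.val (NumberField.RingOfIntegers.isIntegral_coe x)

lemma pn681_coe_le_one (x : 𝓞 K) : pn681 q g (((x : K) : Qb)) ≤ 1 :=
  pn681_le_one_of_isIntegral q g (isIntegral_coe681 K x)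

/-- The prime `{x ∈ 𝓞 K | ‖ι_q (g⁻¹ x)‖ < 1}` of `𝓞 K`. -/
def placePrime681 : Ideal (𝓞 K) where
  carrier := {x | pn681 q g (((x : K) : Qb)) < 1}
  add_mem' := fun {a b} ha hb => by
    show pn681 q g ((((a + b : 𝓞 K) : K) : Qb)) < 1
    have h : ((((a + b : 𝓞 K) : K) : Qb)) = ((a : K) : Qb) + ((b : K) : Qb) := by
      push_cast
      rfl
    rw [h]
    exact lt_of_le_of_lt (pn681_add_le_max q g _ _) (max_lt ha hb)
  zero_mem' := by
    show pn681 q g ((((0 : 𝓞 K) : K) : Qb)) < 1
    have h : ((((0 : 𝓞 K) : K) : Qb)) = 0 := by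
      push_cast
      rfl
    rw [h, pn681_zero]
    exact one_pos
  smul_mem' := fun c x hx => by
    show pn681 q g ((((c * x : 𝓞 K) : K) : Qb)) < 1
    have h : ((((c * x : 𝓞 K) : K) : Qb)) = ((c : K) : Qb) * ((x : K) : Qb) := by
      push_cast
      rfl
    rw [h, pn681_mul]
    calc pn681 q g ((c : K) : Qb) * pn681 q g ((x : K) : Qb)
        ≤ 1 * pn681 q g ((x : K) : Qb) :=
          mul_le_mul_of_nonneg_right (pn681_coe_le_one K q g c) (pn681_nonneg q g _)
      _ = pn681 q g ((x : K) : Qb) := one_mul _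
      _ < 1 := hx

lemma mem_placePrime681 {x : 𝓞 K} :
    x ∈ placePrime681 K q g ↔ pn681 q g (((x : K) : Qb)) < 1 := Iff.rfl

lemma pn681_eq_one_of_notMem {x : 𝓞 K} (hx : x ∉ placePrime681 K q g) :
    pn681 q g (((x : K) : Qb)) = 1 :=
  le_antisymm (pn681_coe_le_one K q g x) (not_lt.mp hx)

instance placePrime681_isPrime : (placePrime681 K q g).IsPrime := by
  constructor
  · intro h
    have h1 : (1 : 𝓞 K) ∈ placePrime681 K q g := by rw [h]; trivial
    rw [mem_placePrime681] at h1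
    have h2 : ((((1 : 𝓞 K) : K) : Qb)) = 1 := by
      push_cast
      rfl
    rw [h2, pn681_one] at h1
    exact lt_irrefl _ h1
  · intro a b hab
    rw [mem_placePrime681] at hab
    have h : ((((a * b : 𝓞 K) : K) : Qb)) = ((a : K) : Qb) * ((b : K) : Qb) := by
      push_cast
      rfl
    rw [h, pn681_mul] at hab
    by_contra hcon
    rw [not_or] at hcon
    rw [pn681_eq_one_of_notMem K q g hcon.1, pn681_eq_one_of_notMem K q g hcon.2, one_mul] at hab
    exact lt_irrefl _ hab

lemma natCast_mem_placePrime681 : (q : 𝓞 K) ∈ placePrime681 K q g := by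
  rw [mem_placePrime681]
  have h : ((((q : 𝓞 K) : K) : Qb)) = (q : Qb) := by
    push_cast
    rfl
  rw [h]
  exact pn681_natCast_self_lt_one q g

lemma placePrime681_ne_bot : placePrime681 K q g ≠ ⊥ := by
  intro h
  have h1 := natCast_mem_placePrime681 K q g
  rw [h, Ideal.mem_bot] at h1
  have : ((q : ℕ) : 𝓞 K) ≠ 0 := Nat.cast_ne_zero.mpr (Fact.out : q.Prime).ne_zero
  exact this h1

/-- The place as a height-one prime of `𝓞 K`. -/
def placeV681 : HeightOneSpectrum (𝓞 K) :=
  ⟨placePrime681 K q g, placePrime681_isPrime K q g, placePrime681_ne_bot K q g⟩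

@[simp] lemma placeV681_asIdeal : (placeV681 K q g).asIdeal = placePrime681 K q g := rfl

/-- `v x = 1 → ‖x‖ = 1`. -/
theorem pn_eq_one_of_valuation_eq_one681 (x : K)
    (hx : (placeV681 K q g).valuation K x = 1) : pn681 q g (x : Qb) = 1 := by
  set v := placeV681 K q g with hv
  obtain ⟨n, d, hnd⟩ := v.exists_primeCompl_mul_eq_or_mul_eq (K := K) x
  have hd : (d : 𝓞 K) ∉ placePrime681 K q g := d.2
  have hvd : v.valuation K (algebraMap (𝓞 K) K d) = 1 := by
    rw [HeightOneSpectrum.valuation_of_algebraMap]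
    exact (v.intValuation_eq_one_iff_mem_primeCompl _).mpr d.2
  have hpd : pn681 q g ((((d : 𝓞 K) : K)) : Qb) = 1 := pn681_eq_one_of_notMem K q g hd
  have hvn : v.valuation K (algebraMap (𝓞 K) K n) = 1 := by
    rcases hnd with h | h
    · rw [← h, map_mul, hx, hvd, one_mul]
    · have h1 := congrArg (v.valuation K) h
      rw [map_mul, hx, hvd, one_mul] at h1
      exact h1
  have hn : n ∉ placePrime681 K q g := by
    rw [HeightOneSpectrum.valuation_of_algebraMap] at hvn
    exact (v.intValuation_eq_one_iff_mem_primeCompl _).mp hvn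
  have hpn : pn681 q g ((((n : 𝓞 K) : K)) : Qb) = 1 := pn681_eq_one_of_notMem K q g hn
  rcases hnd with h | h
  · have h1 : (x : Qb) * ((((d : 𝓞 K) : K)) : Qb) = ((((n : 𝓞 K) : K)) : Qb) := by
      have := congrArg (fun y : K => (y : Qb)) h
      simpa using this
    have h2 := congrArg (pn681 q g) h1
    rw [pn681_mul, hpd, hpn, mul_one] at h2
    exact h2
  · have h1 : (x : Qb) * ((((n : 𝓞 K) : K)) : Qb) = ((((d : 𝓞 K) : K)) : Qb) := by
      have := congrArg (fun y : K => (y : Qb)) h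
      simpa using this
    have h2 := congrArg (pn681 q g) h1
    rw [pn681_mul, hpd, hpn, mul_one] at h2
    exact h2

/-- A `v`-uniformizer in `𝓞 K`. -/
def unif681 : 𝓞 K := Classical.choose (placeV681 K q g).intValuation_exists_uniformizer

lemma unif681_spec : (placeV681 K q g).intValuation (unif681 K q g) = WithZero.exp (-1 : ℤ) :=
  Classical.choose_spec (placeV681 K q g).intValuation_exists_uniformizer

lemma unif681_ne_zero : unif681 K q g ≠ 0 := by
  intro h
  have := unif681_spec K q g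
  rw [h, map_zero] at this
  exact WithZero.exp_ne_zero.symm this

lemma unif681_mem : unif681 K q g ∈ placePrime681 K q g := by
  have h := unif681_spec K q g
  have h1 : (placeV681 K q g).intValuation (unif681 K q g) < 1 := by
    rw [h, ← WithZero.exp_zero, WithZero.exp_lt_exp]
    norm_num
  exact ((placeV681 K q g).intValuation_lt_one_iff_mem _).mp h1

/-- The norm of the `v`-uniformizer. -/
def cst681 : ℝ := pn681 q g ((((unif681 K q g : 𝓞 K) : K)) : Qb)

lemma cst681_lt_one : cst681 K q g < 1 := unif681_mem K q g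

lemma cst681_pos : 0 < cst681 K q g := by
  apply pn681_pos
  intro h
  apply unif681_ne_zero K q g
  have h1 : (((unif681 K q g : 𝓞 K) : K)) = 0 := by
    apply Subtype.ext
    exact h
  exact_mod_cast h1

/-- `‖x‖ = c ^ m` where `v x = exp (-m)`. -/
theorem pn_eq_zpow681 (x : K) (m : ℤ)
    (hx : (placeV681 K q g).valuation K x = WithZero.exp (-m)) :
    pn681 q g (x : Qb) = cst681 K q g ^ m := by
  set v := placeV681 K q g with hv
  set t : K := ((unif681 K q g : 𝓞 K) : K) with ht
  have ht0 : t ≠ 0 := by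
    rw [ht]
    exact_mod_cast unif681_ne_zero K q g
  have hvt : v.valuation K t = WithZero.exp (-1 : ℤ) := by
    rw [ht, HeightOneSpectrum.valuation_of_algebraMap]
    exact unif681_spec K q g
  have hy : v.valuation K (x / t ^ m) = 1 := by
    rw [map_div₀, map_zpow₀, hvt, hx, ← WithZero.exp_zsmul, smul_eq_mul, mul_neg, mul_one]
    exact div_self WithZero.exp_ne_zero
  have h1 := pn_eq_one_of_valuation_eq_one681 K q g _ hy
  have h2 : ((x / t ^ m : K) : Qb) = (x : Qb) / (t : Qb) ^ m := by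
    push_cast
    rfl
  rw [h2, div_eq_mul_inv, pn681_mul, pn681_inv, pn681_zpow] at h1
  have hc : pn681 q g (t : Qb) ^ m ≠ 0 :=
    zpow_ne_zero _ (cst681_pos K q g).ne'
  have h3 : pn681 q g (x : Qb) = pn681 q g (t : Qb) ^ m := by
    field_simp at h1
    exact h1
  exact h3

end Prime

end Fermat.Agent.LT.CFT.H681
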