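import Fermat.Agent.LT.CFT.H681.Dict1

/-!
# LT / tower CFT : dictionary, part 2 — local data of `locSub q g U` versus `𝓞 K`  (helper681)

`K` a number field inside `ℚ̄`, `U = Gal(ℚ̄/K)`, `V = locSub q g U`, `P = placePrime681 K q g`.

* `exists_close681` : `K` is dense in the fixed field of `V`;
* `cst_eq_norm_unif681` : the norm of a uniformizer of `V` is the norm of a `P`-uniformizer;
* `valuation_eq_of_vdeg681` : `vdeg (a) = f · k`, `f` the residue degree ⇒ `v_P (a) = exp (-k)`;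
* `card_quot_eq681` : `|𝓞 K / P| = q ^ f`, `f` the residue degree of `V`;
* `frob_cong681` : a Frobenius element `φ` of `V` gives `σ = g · loc φ · g⁻¹ ∈ U` with
  `σ x ≡ x ^ |𝓞 K / P|` modulo the place, for all algebraic integers `x`.
-/

set_option autoImplicit false

noncomputable section

namespace Fermat.Agent.LT.CFT.H681

open Fermat.Agent.S55.G.Rec groupCohomology NumberField IsDedekindDomain
open scoped NumberField WithZero

local notation "Qb" => AlgebraicClosure ℚ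
local notation "GQ" => (AlgebraicClosure ℚ ≃ₐ[ℚ] AlgebraicClosure ℚ)

variable (K : IntermediateField ℚ Qb) [NumberField K] (q : ℕ) [Fact q.Prime] (g : GQ)

lemma isOpenQ_fixingSubgroup681 : IsOpenQ K.fixingSubgroup :=
  ⟨K, inferInstance, le_rfl⟩

lemma fixK_fixingSubgroup681 : H742.fixK K.fixingSubgroup = K := by
  haveI := Fermat.Agent.S54.isGalois_algebraicClosure_rat
  exact InfiniteGalois.fixedField_fixingSubgroup K

/-- The image of `K` is fixed by `locSub q g U`. -/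
lemma isFixedBy_emb681 {x : Qb} (hx : x ∈ K) :
    IsFixedBy q (locSub q g K.fixingSubgroup) (padicEmbedding q (g⁻¹ x)) := by
  intro τ hτ
  rw [mem_locSub] at hτ
  rw [← padicEmbedding_localGaloisToGlobal]
  congr 1
  have h1 := (IntermediateField.mem_fixingSubgroup_iff K _).1 hτ x hx
  have h2 : g (localGaloisToGlobal q τ (g⁻¹ x)) = x := h1
  have h3 := congrArg (g⁻¹ : GQ) h2
  rw [show (g⁻¹ : GQ) (g (localGaloisToGlobal q τ (g⁻¹ x))) = localGaloisToGlobal q τ (g⁻¹ x) from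
    AlgEquiv.symm_apply_apply g _] at h3
  exact h3

/-- **Density** of `K` in the fixed field of `locSub q g U`. -/
theorem exists_close681 (y : PadicAlgCl q)
    (hy : IsFixedBy q (locSub q g K.fixingSubgroup) y) {ε : ℝ} (hε : 0 < ε) :
    ∃ x : K, ‖padicEmbedding q (g⁻¹ (x : Qb)) - y‖ < ε := by
  have h1 := H742.mem_adjoin_of_isFixedBy q (isOpenQ_fixingSubgroup681 K) g y hy
  have h2 : y ∈ Algebra.adjoin ℚ_[q]
      ((H742.imK q g K.fixingSubgroup : Subring (PadicAlgCl q)) : Set (PadicAlgCl q)) := by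
    rw [← IntermediateField.adjoin_toSubalgebra]
    exact h1
  have h3 : y ∈ H742.clK q g K.fixingSubgroup := by
    refine (Algebra.adjoin_le (S := H742.clK q g K.fixingSubgroup) ?_) h2
    intro z hz
    exact Subring.le_topologicalClosure _ hz
  rw [H742.mem_clK_iff, Metric.mem_closure_iff] at h3
  obtain ⟨s, hs, hsy⟩ := h3 ε hε
  rw [SetLike.mem_coe, H742.mem_imK_iff] at hs
  obtain ⟨x, hx, rfl⟩ := hs
  rw [fixK_fixingSubgroup681] at hx
  refine ⟨⟨x, hx⟩, ?_⟩
  rw [dist_comm, dist_eq_norm] at hsy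
  exact hsy

/-- The valuation of a nonzero element is `exp (-m)`. -/
lemma exists_valuation_eq_exp681 {x : K} (hx : x ≠ 0) :
    ∃ m : ℤ, (placeV681 K q g).valuation K x = WithZero.exp (-m) := by
  have h0 : (placeV681 K q g).valuation K x ≠ 0 := (Valuation.ne_zero_iff _).mpr hx
  refine ⟨-WithZero.log ((placeV681 K q g).valuation K x), ?_⟩
  rw [neg_neg, WithZero.exp_log h0]

/-- The norm of a uniformizer of `locSub q g U` is the norm of a `P`-uniformizer. -/
theorem cst_eq_norm_unif681 (π : PadicAlgCl q)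
    (hπ : IsUniformizer q (locSub q g K.fixingSubgroup) π) : cst681 K q g = ‖π‖ := by
  apply le_antisymm
  · exact hπ.2.2.2 _ (isFixedBy_emb681 K q g (SetLike.coe_mem _)) (cst681_lt_one K q g)
  · obtain ⟨x, hxK, hx0, hx⟩ :=
      H742.exists_global_norm_eq q (isOpenQ_fixingSubgroup681 K) g π hπ.2.1 hπ.1
    rw [fixK_fixingSubgroup681] at hxK
    have hx0' : (⟨x, hxK⟩ : K) ≠ 0 := fun h => hx0 (congrArg Subtype.val h)
    obtain ⟨m, hm⟩ := exists_valuation_eq_exp681 K q g hx0'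
    have h1 : pn681 q g x = cst681 K q g ^ m := pn_eq_zpow681 K q g ⟨x, hxK⟩ m hm
    have h2 : ‖π‖ = cst681 K q g ^ m := by rw [← hx, ← h1]; rfl
    have hc0 := cst681_pos K q g
    have hc1 := cst681_lt_one K q g
    have hm1 : 1 ≤ m := by
      by_contra hcon
      rw [not_le] at hcon
      have hm0 : m ≤ 0 := by omega
      have : (1 : ℝ) ≤ cst681 K q g ^ m := one_le_zpow_of_nonpos₀ hc0 hc1.le hm0
      rw [← h2] at this
      exact absurd hπ.2.2.1 (not_lt.mpr this)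
    rw [h2]
    calc cst681 K q g ^ m ≤ cst681 K q g ^ (1 : ℤ) :=
          zpow_le_zpow_right_of_le_one₀ hc0 hc1.le hm1
      _ = cst681 K q g := zpow_one _

/-- **Valuations**: if `vdeg (a) = f · k` with `f` the residue degree of `locSub q g U`, then
`v_P (a) = exp (-k)`. -/
theorem valuation_eq_of_vdeg681 (a : Qbˣ) (ha : (a : Qb) ∈ K) (f : ℕ)
    (hf : IsResidueDegree q (locSub q g K.fixingSubgroup) f) (k : ℤ)
    (hk : vdeg q (locSub q g K.fixingSubgroup) (locPushMul q g a) = f * k) :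
    (placeV681 K q g).valuation K ⟨(a : Qb), ha⟩ = WithZero.exp (-k) := by
  have hU := isOpenQ_fixingSubgroup681 K
  obtain ⟨f₀, φ, π, hf₀, -, -, hπ, -, hdec⟩ :=
    H931.localStructure q (locSub q g K.fixingSubgroup) (H181.isOpenL_locSub q g hU)
  have haG : GFixed K.fixingSubgroup a := by
    intro u hu
    apply Units.ext
    exact (IntermediateField.mem_fixingSubgroup_iff K u).1 hu _ ha
  obtain ⟨k₀, u, -, hu1, hau, hk₀⟩ :=
    hdec (locPushMul q g a) (H496.lFixed_locPushMul q g K.fixingSubgroup a haG)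
  have hff : f₀ = f := H900.isResidueDegree_unique q hf₀ hf
  subst hff
  have hkk : k₀ = k := by
    have h1 : (f₀ : ℤ) * k₀ = f₀ * k := hk₀.symm.trans hk
    have hf0 : (f₀ : ℤ) ≠ 0 := by exact_mod_cast hf.1.ne'
    exact mul_left_cancel₀ hf0 h1
  subst hkk
  have hnorm : pn681 q g (a : Qb) = ‖(π : PadicAlgCl q)‖ ^ k₀ := by
    have h1 : ((locPushMul q g a : (PadicAlgCl q)ˣ) : PadicAlgCl q) =
        (π : PadicAlgCl q) ^ k₀ * (u : PadicAlgCl q) := by
      rw [hau, Units.val_mul, Units.val_zpow_eq_zpow_val]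
    show ‖padicEmbedding q (g⁻¹ (a : Qb))‖ = _
    rw [← locPushMul_coe, h1, norm_mul, norm_zpow, hu1, mul_one]
  have ha0 : (⟨(a : Qb), ha⟩ : K) ≠ 0 := fun h => a.ne_zero (congrArg Subtype.val h)
  obtain ⟨m, hm⟩ := exists_valuation_eq_exp681 K q g ha0
  have h2 : pn681 q g (a : Qb) = cst681 K q g ^ m := pn_eq_zpow681 K q g ⟨(a : Qb), ha⟩ m hm
  rw [cst_eq_norm_unif681 K q g π hπ, hnorm] at h2
  have hπ0 : 0 < ‖(π : PadicAlgCl q)‖ := norm_pos_iff.mpr hπ.2.1
  have hπ1 : ‖(π : PadicAlgCl q)‖ ≠ 1 := hπ.2.2.1.ne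
  have hmk : k₀ = m := zpow_right_injective₀ hπ0 hπ1 h2
  rw [hm, hmk]

/-! ## Residue fields -/

/-- Integral approximation: an element of `K` of norm `≤ 1` is congruent to an algebraic
integer of `K`. -/
lemma exists_integer_close681 (y : K) (hy : pn681 q g (y : Qb) ≤ 1) :
    ∃ z : 𝓞 K, pn681 q g ((((z : K)) : Qb) - (y : Qb)) < 1 := by
  by_cases hy0 : y = 0
  · refine ⟨0, ?_⟩
    rw [hy0]
    have : ((((0 : 𝓞 K) : K)) : Qb) - (((0 : K)) : Qb) = 0 := by
      push_cast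
      simp
    rw [this, pn681_zero]
    exact one_pos
  set v := placeV681 K q g with hv
  obtain ⟨m, hm⟩ := exists_valuation_eq_exp681 K q g hy0
  have h1 : pn681 q g (y : Qb) = cst681 K q g ^ m := pn_eq_zpow681 K q g y m hm
  have hc0 := cst681_pos K q g
  have hc1 := cst681_lt_one K q g
  have hm0 : 0 ≤ m := by
    by_contra hcon
    rw [not_le] at hcon
    have : (1 : ℝ) < cst681 K q g ^ m := one_lt_zpow_of_neg₀ hc0 hc1 hcon
    rw [← h1] at this
    exact absurd hy (not_le.mpr this)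
  have hvy : v.valuation K y ≤ 1 := by
    rw [hm, ← WithZero.exp_zero, WithZero.exp_le_exp]
    omega
  obtain ⟨n, d, hnd⟩ := v.exists_primeCompl_mul_eq_of_integer (K := K) y hvy
  have hd : (d : 𝓞 K) ∉ placePrime681 K q g := d.2
  have hmax : (placePrime681 K q g).IsMaximal := v.isMaximal
  obtain ⟨e, i, hi, hei⟩ := hmax.exists_inv hd
  refine ⟨n * e, ?_⟩
  have h2 : ((((n * e : 𝓞 K) : K)) : Qb) - (y : Qb) = -((y : Qb) * ((((i : 𝓞 K) : K)) : Qb)) := by
    have h3 : (((n : 𝓞 K) : K)) = y * (((d : 𝓞 K) : 𝓞 K) : K) := hnd.symm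
    have h4 : ((((e * d + i : 𝓞 K)) : K)) = 1 := by rw [hei]; rfl
    have h5 : ((((n * e : 𝓞 K) : K))) - y = -(y * (((i : 𝓞 K) : K))) := by
      have h6 : (((e : 𝓞 K) : K)) * (((d : 𝓞 K) : 𝓞 K) : K) + (((i : 𝓞 K) : K)) = 1 := by
        rw [← h4]
        push_cast
        rfl
      have h7 : ((((n * e : 𝓞 K) : K))) = (((n : 𝓞 K) : K)) * (((e : 𝓞 K) : K)) := by
        push_cast
        rfl
      rw [h7, h3]
      linear_combination y * h6
    have := congrArg (fun t : K => (t : Qb)) h5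
    simpa using this
  rw [h2, pn681_neg, pn681_mul]
  calc pn681 q g (y : Qb) * pn681 q g ((((i : 𝓞 K) : K)) : Qb)
      ≤ 1 * pn681 q g ((((i : 𝓞 K) : K)) : Qb) :=
        mul_le_mul_of_nonneg_right hy (pn681_nonneg q g _)
    _ = pn681 q g ((((i : 𝓞 K) : K)) : Qb) := one_mul _
    _ < 1 := hi

section Ultra

variable {F : Type*} [NormedField F] [IsUltrametricDist F]

lemma norm_pow_sub_pow_lt_one681 {x w : F} (hx : ‖x‖ ≤ 1) (hw : ‖w‖ ≤ 1) (h : ‖x - w‖ < 1)
    (c : ℕ) : ‖x ^ c - w ^ c‖ < 1 ∨ c = 0 := by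
  induction c with
  | zero => exact Or.inr rfl
  | succ c ih =>
    left
    have h1 : x ^ (c + 1) - w ^ (c + 1) = x * (x ^ c - w ^ c) + (x - w) * w ^ c := by ring
    rw [h1]
    refine lt_of_le_of_lt (IsUltrametricDist.norm_add_le_max _ _) (max_lt ?_ ?_)
    · rcases ih with ih | ih
      · rw [norm_mul]
        calc ‖x‖ * ‖x ^ c - w ^ c‖ ≤ 1 * ‖x ^ c - w ^ c‖ :=
              mul_le_mul_of_nonneg_right hx (norm_nonneg _)
          _ = ‖x ^ c - w ^ c‖ := one_mul _
          _ < 1 := ih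
      · subst ih
        simp
    · rw [norm_mul, norm_pow]
      calc ‖x - w‖ * ‖w‖ ^ c ≤ ‖x - w‖ * 1 :=
            mul_le_mul_of_nonneg_left (pow_le_one₀ (norm_nonneg _) hw) (norm_nonneg _)
        _ = ‖x - w‖ := mul_one _
        _ < 1 := h

end Ultra

/-- Every integral element of the fixed field of `locSub q g U` is congruent to the image of an
algebraic integer of `K`. -/
lemma exists_integer_cong681 (x : PadicAlgCl q)
    (hx : IsFixedBy q (locSub q g K.fixingSubgroup) x) (hx1 : ‖x‖ ≤ 1) :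
    ∃ z : 𝓞 K, ‖padicEmbedding q (g⁻¹ (((z : K)) : Qb)) - x‖ < 1 := by
  obtain ⟨y, hy⟩ := exists_close681 K q g x hx one_pos
  have hy1 : pn681 q g (y : Qb) ≤ 1 := by
    show ‖padicEmbedding q (g⁻¹ (y : Qb))‖ ≤ 1
    have h1 : padicEmbedding q (g⁻¹ (y : Qb)) = (padicEmbedding q (g⁻¹ (y : Qb)) - x) + x := by
      ring
    rw [h1]
    exact (PadicAlgCl.isNonarchimedean q _ _).trans (max_le hy.le hx1)
  obtain ⟨z, hz⟩ := exists_integer_close681 K q g y hy1
  refine ⟨z, ?_⟩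
  have h2 : padicEmbedding q (g⁻¹ (((z : K)) : Qb)) - x =
      padicEmbedding q (g⁻¹ ((((z : K)) : Qb) - (y : Qb))) +
        (padicEmbedding q (g⁻¹ (y : Qb)) - x) := by
    rw [map_sub, map_sub]
    ring
  rw [h2]
  exact lt_of_le_of_lt (PadicAlgCl.isNonarchimedean q _ _) (max_lt hz hy)

/-- **Residue degrees**: `|𝓞 K / P| = q ^ f`, `f` the residue degree of `locSub q g U`. -/
theorem card_quot_eq681 (f : ℕ) (hf : IsResidueDegree q (locSub q g K.fixingSubgroup) f) :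
    Nat.card (𝓞 K ⧸ placePrime681 K q g) = q ^ f := by
  classical
  have hq : q.Prime := Fact.out
  set P := placePrime681 K q g with hP
  haveI hmax : P.IsMaximal := (placeV681 K q g).isMaximal
  letI : Field (𝓞 K ⧸ P) := Ideal.Quotient.field P
  haveI : Finite (𝓞 K ⧸ P) := Ideal.finiteQuotientOfFreeOfNeBot P (placePrime681_ne_bot K q g)
  letI : Fintype (𝓞 K ⧸ P) := Fintype.ofFinite _
  have hq0 : ((q : ℕ) : 𝓞 K ⧸ P) = 0 := by
    have h := natCast_mem_placePrime681 K q g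
    have h1 : (Ideal.Quotient.mk P) ((q : ℕ) : 𝓞 K) = 0 := Ideal.Quotient.eq_zero_iff_mem.mpr h
    rwa [map_natCast] at h1
  haveI : CharP (𝓞 K ⧸ P) q := (CharP.charP_iff_prime_eq_zero hq).mpr hq0
  obtain ⟨n, -, hn⟩ := FiniteField.card (𝓞 K ⧸ P) q
  rw [Nat.card_eq_fintype_card, hn]
  congr 1
  apply le_antisymm
  · -- `n ≤ f` : every element of the residue field is a root of `X ^ (q ^ f) - X`
    have hroot : ∀ z : 𝓞 K ⧸ P, z ^ (q ^ f) = z := by
      intro z
      obtain ⟨z, rfl⟩ := Ideal.Quotient.mk_surjective z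
      rw [← map_pow, ← sub_eq_zero, ← map_sub, Ideal.Quotient.eq_zero_iff_mem, hP,
        mem_placePrime681]
      have h1 := hf.2.1 (padicEmbedding q (g⁻¹ (((z : K)) : Qb)))
        (isFixedBy_emb681 K q g (SetLike.coe_mem _)) (pn681_coe_le_one K q g z)
      have h2 : ((((z ^ (q ^ f) - z : 𝓞 K) : K)) : Qb) =
          ((((z : 𝓞 K) : K)) : Qb) ^ (q ^ f) - ((((z : 𝓞 K) : K)) : Qb) := by
        push_cast
        rfl
      rw [h2]
      show ‖padicEmbedding q (g⁻¹ _)‖ < 1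
      rw [map_sub, map_sub, map_pow, map_pow]
      exact h1
    have h1q : 1 < q ^ f := Nat.one_lt_pow hf.1.ne' hq.one_lt
    have hsub : (Finset.univ : Finset (𝓞 K ⧸ P)).val ⊆
        (Polynomial.X ^ (q ^ f) - Polynomial.X : Polynomial (𝓞 K ⧸ P)).roots := by
      intro z _
      rw [Polynomial.mem_roots (FiniteField.X_pow_card_sub_X_ne_zero (𝓞 K ⧸ P) h1q)]
      simp [Polynomial.IsRoot, hroot z]
    have h3 := Polynomial.card_le_degree_of_subset_roots hsub
    rw [FiniteField.X_pow_card_sub_X_natDegree_eq (𝓞 K ⧸ P) h1q, Finset.card_univ, hn] at h3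
    exact (Nat.pow_le_pow_iff_right hq.one_lt).mp h3
  · -- `f ≤ n` : minimality of `f`
    apply hf.2.2 n n.pos
    intro x hx hx1
    obtain ⟨z, hz⟩ := exists_integer_cong681 K q g x hx hx1
    set w := padicEmbedding q (g⁻¹ (((z : K)) : Qb)) with hw
    have hw1 : ‖w‖ ≤ 1 := pn681_coe_le_one K q g z
    have hzP : z ^ (q ^ (n : ℕ)) - z ∈ P := by
      rw [← Ideal.Quotient.eq_zero_iff_mem, map_sub, map_pow, sub_eq_zero, ← hn]
      exact FiniteField.pow_card _
    rw [hP, mem_placePrime681] at hzP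
    have h2 : ((((z ^ (q ^ (n : ℕ)) - z : 𝓞 K) : K)) : Qb) =
        ((((z : 𝓞 K) : K)) : Qb) ^ (q ^ (n : ℕ)) - ((((z : 𝓞 K) : K)) : Qb) := by
      push_cast
      rfl
    rw [h2] at hzP
    have hzP' : ‖w ^ (q ^ (n : ℕ)) - w‖ < 1 := by
      have : pn681 q g (((((z : 𝓞 K) : K)) : Qb) ^ (q ^ (n : ℕ)) - ((((z : 𝓞 K) : K)) : Qb)) =
          ‖w ^ (q ^ (n : ℕ)) - w‖ := by
        show ‖padicEmbedding q (g⁻¹ _)‖ = _
        rw [map_sub, map_sub, map_pow, map_pow]
      rw [← this]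
      exact hzP
    have hxw : ‖x - w‖ < 1 := by rw [← norm_neg, neg_sub]; exact hz
    have hpow : ‖x ^ (q ^ (n : ℕ)) - w ^ (q ^ (n : ℕ))‖ < 1 := by
      rcases norm_pow_sub_pow_lt_one681 hx1 hw1 hxw (q ^ (n : ℕ)) with h | h
      · exact h
      · exact absurd h (pow_ne_zero _ hq.ne_zero)
    have h5 : x ^ (q ^ (n : ℕ)) - x =
        (x ^ (q ^ (n : ℕ)) - w ^ (q ^ (n : ℕ))) + ((w ^ (q ^ (n : ℕ)) - w) + (w - x)) := by ring
    rw [h5]
    refine lt_of_le_of_lt (PadicAlgCl.isNonarchimedean q _ _) (max_lt hpow ?_)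
    exact lt_of_le_of_lt (PadicAlgCl.isNonarchimedean q _ _) (max_lt hzP' hz)

/-- **Frobenius**: a Frobenius element `φ` of `locSub q g U` induces the Frobenius congruence
`σ x ≡ x ^ |𝓞 K / P|` at the place, `σ = g · loc φ · g⁻¹ ∈ U`, for all algebraic integers `x`. -/
theorem frob_cong681 (f : ℕ) (hf : IsResidueDegree q (locSub q g K.fixingSubgroup) f)
    (φ : ↥(locSub q g K.fixingSubgroup))
    (hφ : ∀ x : PadicAlgCl q, ‖x‖ ≤ 1 →
      ‖(φ : PadicAlgCl q ≃ₐ[ℚ_[q]] PadicAlgCl q) x - x ^ (q ^ f)‖ < 1)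
    (x : Qb) (hx : IsIntegral ℤ x) :
    pn681 q g (((locHom q g K.fixingSubgroup φ : ↥K.fixingSubgroup) : GQ) x -
      x ^ Nat.card (𝓞 K ⧸ placePrime681 K q g)) < 1 := by
  rw [card_quot_eq681 K q g f hf]
  show ‖padicEmbedding q (g⁻¹ _)‖ < 1
  rw [map_sub, map_sub, map_pow, map_pow, locHom_coe]
  have h1 : (g⁻¹ : GQ) ((g * localGaloisToGlobal q φ * g⁻¹) x) =
      localGaloisToGlobal q φ ((g⁻¹ : GQ) x) := by
    show (g⁻¹ : GQ) (g (localGaloisToGlobal q φ ((g⁻¹ : GQ) x))) = _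
    exact AlgEquiv.symm_apply_apply g _
  rw [h1, padicEmbedding_localGaloisToGlobal]
  exact hφ _ (pn681_le_one_of_isIntegral q g hx)

end Fermat.Agent.LT.CFT.H681
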