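import Fermat.Agent.LT.CFT.H681.Dict2
import Fermat.Agent.Lib.Cheb.Bridge956C
import Fermat.Agent.Lib.Cheb.H476.FrobConj

/-!
# LT / tower CFT : dictionary, part 3 — places `(q, g)` ↔ primes of `𝓞 K`  (helper681)

* `pn_le_one_iff681` : `‖x‖ ≤ 1 ↔ v_P (x) ≤ 1`;
* `placePrime681_doubleCoset` : the prime of the place `(q, u g d)` is the prime of `(q, g)`
  (`u ∈ U = Gal(ℚ̄/K)`, `d ∈ D_q`);
* `exists_doubleCoset_of_placePrime_eq681` : same prime ⇒ same double coset `U g D_q`;
* `exists_placePrime_eq681` : every prime of `𝓞 K` above `q` is the prime of a place `(q, g)`;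
* `exists_prime_mem681` : every height-one prime of `𝓞 K` lies above a rational prime.
-/

set_option autoImplicit false

noncomputable section

namespace Fermat.Agent.LT.CFT.H681

open Fermat.Agent.S55.G.Rec groupCohomology NumberField IsDedekindDomain
open scoped NumberField WithZero Pointwise

local notation "Qb" => AlgebraicClosure ℚ
local notation "GQ" => (AlgebraicClosure ℚ ≃ₐ[ℚ] AlgebraicClosure ℚ)

variable (K : IntermediateField ℚ Qb) [NumberField K] (q : ℕ) [Fact q.Prime]

/-- `‖x‖ ≤ 1 ↔ v_P (x) ≤ 1`. -/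
theorem pn_le_one_iff681 (g : GQ) (x : K) :
    pn681 q g (x : Qb) ≤ 1 ↔ (placeV681 K q g).valuation K x ≤ 1 := by
  by_cases hx : x = 0
  · subst hx
    have : (((0 : K)) : Qb) = 0 := rfl
    rw [this, pn681_zero, map_zero]
    exact ⟨fun _ => zero_le_one, fun _ => zero_le_one⟩
  obtain ⟨m, hm⟩ := exists_valuation_eq_exp681 K q g hx
  have h1 : pn681 q g (x : Qb) = cst681 K q g ^ m := pn_eq_zpow681 K q g x m hm
  have hc0 := cst681_pos K q g
  have hc1 := cst681_lt_one K q g
  rw [h1, hm, ← WithZero.exp_zero, WithZero.exp_le_exp]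
  constructor
  · intro h
    by_contra hcon
    have hm0 : m < 0 := by omega
    have : (1 : ℝ) < cst681 K q g ^ m := one_lt_zpow_of_neg₀ hc0 hc1 hm0
    exact absurd h (not_le.mpr this)
  · intro h
    have hm0 : 0 ≤ m := by omega
    have h0 : cst681 K q g ^ m ≤ cst681 K q g ^ (0 : ℤ) :=
      zpow_le_zpow_right_of_le_one₀ hc0 hc1.le hm0
    rwa [zpow_zero] at h0

/-! ## Invariance under the double coset -/

lemma pn681_mul_right (g d : GQ) (hd : d ∈ (localGaloisToGlobal q).range) (x : Qb) :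
    pn681 q (g * d) x = pn681 q g x := by
  obtain ⟨τ, rfl⟩ := hd
  unfold pn681
  have h1 : ((g * localGaloisToGlobal q τ)⁻¹ : GQ) x =
      localGaloisToGlobal q τ⁻¹ ((g⁻¹ : GQ) x) := by
    rw [mul_inv_rev, map_inv]
    rfl
  rw [h1, padicEmbedding_localGaloisToGlobal, H854.norm_algEquiv_padicAlgCl]

lemma pn681_mul_left (u g : GQ) (hu : u ∈ K.fixingSubgroup) {x : Qb} (hx : x ∈ K) :
    pn681 q (u * g) x = pn681 q g x := by
  unfold pn681
  have h1 : ((u * g)⁻¹ : GQ) x = (g⁻¹ : GQ) ((u⁻¹ : GQ) x) := by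
    rw [mul_inv_rev]
    rfl
  have h2 : (u⁻¹ : GQ) x = x :=
    (IntermediateField.mem_fixingSubgroup_iff K _).1 (K.fixingSubgroup.inv_mem hu) x hx
  rw [h1, h2]

/-- The prime of a place depends only on the double coset `U g D_q`. -/
theorem placePrime681_doubleCoset (g u d : GQ) (hu : u ∈ K.fixingSubgroup)
    (hd : d ∈ (localGaloisToGlobal q).range) :
    placePrime681 K q (u * g * d) = placePrime681 K q g := by
  ext x
  rw [mem_placePrime681, mem_placePrime681, pn681_mul_right q (u * g) d hd,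
    pn681_mul_left K q u g hu (SetLike.coe_mem _)]

/-! ## Injectivity -/

/-- Two places of `K` with the same prime of `𝓞 K` lie in the same double coset. -/
theorem exists_doubleCoset_of_placePrime_eq681 (g g' : GQ)
    (h : placePrime681 K q g = placePrime681 K q g') :
    ∃ u ∈ K.fixingSubgroup, ∃ d ∈ (localGaloisToGlobal q).range, g' = u * g * d := by
  apply H742.exists_doubleCoset_of_inter_eq q (isOpenQ_fixingSubgroup681 K) g g'
  intro x hx
  rw [fixK_fixingSubgroup681] at hx
  have hv : placeV681 K q g = placeV681 K q g' := HeightOneSpectrum.ext h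
  have h1 := pn_le_one_iff681 K q g ⟨x, hx⟩
  have h2 := pn_le_one_iff681 K q g' ⟨x, hx⟩
  rw [hv] at h1
  exact h1.trans h2.symm

/-! ## Surjectivity -/

lemma mem_nonunits_padicPlace_iff681 (x : Qb) :
    x ∈ (padicPlace q).nonunits ↔ ‖padicEmbedding q x‖ < 1 := by
  rw [ValuationSubring.mem_nonunits_iff_or]
  by_cases hx : x = 0
  · subst hx
    simp
  · have hne : padicEmbedding q x ≠ 0 := (map_ne_zero (padicEmbedding q)).mpr hx
    have hpos : 0 < ‖padicEmbedding q x‖ := norm_pos_iff.mpr hne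
    rw [Fermat.Agent.S55.Bridge.mem_padicPlace_iff_norm, map_inv₀, norm_inv]
    constructor
    · rintro (h | h)
      · exact absurd h hx
      · rw [not_le] at h
        exact (one_lt_inv₀ hpos).mp h
    · intro h
      right
      rw [not_le]
      exact (one_lt_inv₀ hpos).mpr h

/-- Every prime of `𝓞 K` above `q` is the prime of a place `(q, g)`. -/
theorem exists_placePrime_eq681 (P : Ideal (𝓞 K)) (hP : P.IsPrime) (hq : (q : 𝓞 K) ∈ P) :
    ∃ g : GQ, placePrime681 K q g = P := by
  have hqp : q.Prime := Fact.out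
  obtain ⟨A, hA, hAP⟩ := Fermat.Agent.Lib.Cheb.exists_valuationSubring_over956 K hqp P hP hq
  have hpl : (padicPlace q).LiesOverPrime q := by
    show ((q : ℕ) : Qb) ∈ (padicPlace q).nonunits
    rw [mem_nonunits_padicPlace_iff681]
    have h := pn681_natCast_self_lt_one q 1
    unfold pn681 at h
    rw [inv_one] at h
    exact h
  obtain ⟨g, hg⟩ := Fermat.Agent.Lib.Cheb.H476.exists_smul_eq hqp hpl hA
  refine ⟨g, ?_⟩
  ext x
  rw [mem_placePrime681, ← hAP x, ← hg, Fermat.Agent.Lib.Cheb.H476.mem_nonunits_smul_iff,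
    mem_nonunits_padicPlace_iff681]
  rfl

/-! ## The rational prime below -/

lemma exists_prime_of_natCast_mem681 {R : Type*} [CommRing R] (P : Ideal R) [hP : P.IsPrime] :
    ∀ n : ℕ, n ≠ 0 → (n : R) ∈ P → ∃ q : ℕ, q.Prime ∧ (q : R) ∈ P := by
  intro n
  induction n using Nat.strong_induction_on with
  | _ n ih =>
    intro hn0 hn
    have hn1 : n ≠ 1 := by
      rintro rfl
      rw [Nat.cast_one] at hn
      exact hP.ne_top ((Ideal.eq_top_iff_one P).mpr hn)
    have hmf : (Nat.minFac n).Prime := Nat.minFac_prime hn1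
    have hdvd : Nat.minFac n ∣ n := Nat.minFac_dvd n
    obtain ⟨b, hb⟩ := hdvd
    have hcast : (n : R) = (Nat.minFac n : R) * (b : R) := by
      conv_lhs => rw [hb]
      push_cast
      rfl
    rw [hcast] at hn
    rcases hP.mem_or_mem hn with h | h
    · exact ⟨_, hmf, h⟩
    · have hb0 : b ≠ 0 := by
        rintro rfl
        rw [mul_zero] at hb
        exact hn0 hb
      have hblt : b < n := by
        have h2 : 2 ≤ Nat.minFac n := hmf.two_le
        have hbpos : 0 < b := Nat.pos_of_ne_zero hb0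
        calc b < Nat.minFac n * b := by nlinarith
          _ = n := hb.symm
      exact ih b hblt hb0 h

/-- Every height-one prime of `𝓞 K` lies above a rational prime. -/
theorem exists_prime_mem681 (P : HeightOneSpectrum (𝓞 K)) :
    ∃ q : ℕ, q.Prime ∧ (q : 𝓞 K) ∈ P.asIdeal := by
  haveI := P.isPrime
  refine exists_prime_of_natCast_mem681 P.asIdeal (Ideal.absNorm P.asIdeal) ?_
    (Ideal.absNorm_mem P.asIdeal)
  rw [Ne, Ideal.absNorm_eq_zero_iff]
  exact P.ne_bot

end Fermat.Agent.LT.CFT.H681
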