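import Fermat.Agent.LT.CFT.Spec
import Fermat.Agent.LT.CFT.H681.Artin

/-!
# LT / tower CFT, leaf DICT (`CFT.14`, sub-architect helper681), OFF-MAIN: the cut

Target: `RayOfCycSumC Iloc : CycSumC Iloc → ArtinRayC` of `LT/CFT/Spec.lean` (helper53, frozen).

PROVED already (`H681/Artin.lean`): `artin_of_sumInv681`, the EMBEDDED Artin reciprocity for a
number field `K ⊆ ℚ̄` and a level-constant `χ : Gal(ℚ̄/K) → ℤ/n`, with the rational primes as index
set, the chosen Frobenius elements `FrAt681 K q P`, and closeness to `1` at a finite set `B`.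

The leaves (all TRUE statements; `CFT.14.1` - `CFT.14.5` in the registry):
* `CharFactorC` (14.1) : a character of finite order with values in `ℂˣ` factors through `ℤ/n`;
* `EntryC` (14.2) : `TotallyComplex K → NoOrderTwo (galOf j)` (Artin-Schreier);
* `EmbedC` (14.3) : transport from `(K, j)` abstract to the embedded field `j K ⊆ ℚ̄`;
* `FrobIndepC` (14.4) : outside a finite set of rational primes, `χ` takes the same value on every
  Prelude Frobenius element at `P` and on `FrAt681 K q P`;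
* `RayOfArtinSumC` (14.5) : conductor `𝔣 = (N)`, `ordAt = ordP681`, and the re-indexing of the sum
  over the rational primes and the primes above them as a `finprod` over all primes of `𝓞 K`.

PROVED here: `galOf_algebraMap681`, `rayOfCycSum_of_leaves`.
-/

set_option autoImplicit false

noncomputable section

namespace Fermat.Agent.LT.CFT.H681

open Fermat.Agent.S55.G.Rec Fermat.Agent.LT.CFT groupCohomology NumberField IsDedekindDomain

local notation "Qb" => AlgebraicClosure ℚ
local notation "GQ" => (AlgebraicClosure ℚ ≃ₐ[ℚ] AlgebraicClosure ℚ)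

/-- For an embedded number field the Galois group of `Spec.lean` is the fixing subgroup. -/
theorem galOf_algebraMap681 (K : IntermediateField ℚ Qb) :
    galOf (algebraMap K Qb) = K.fixingSubgroup := by
  ext σ
  constructor
  · intro h
    rw [IntermediateField.mem_fixingSubgroup_iff]
    intro x hx
    exact h ⟨x, hx⟩
  · intro h x
    exact (IntermediateField.mem_fixingSubgroup_iff K σ).1 h _ x.2

/-- **The ray statement for an embedded number field**, values in a commutative monoid `M`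
(`M = ℂˣ`, `M = Multiplicative (ZMod n)`), with the finiteness of the support. -/
def EmbRayTrivial (K : IntermediateField ℚ Qb) [NumberField K] {M : Type} [CommMonoid M]
    (χ : ↥K.fixingSubgroup →* M) (𝔣 : Ideal (𝓞 K)) : Prop :=
  ∀ frob : HeightOneSpectrum (𝓞 K) → ↥K.fixingSubgroup,
    (∀ v : HeightOneSpectrum (𝓞 K), ¬ 𝔣 ≤ v.asIdeal →
      IsFrobAt (algebraMap K Qb) v (frob v : GQ)) →
    ∀ α : 𝓞 K, α ≠ 0 → α - 1 ∈ 𝔣 →
      (Function.mulSupport fun v : HeightOneSpectrum (𝓞 K) => χ (frob v) ^ ordAt v α).Finite ∧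
        ∏ᶠ v : HeightOneSpectrum (𝓞 K), χ (frob v) ^ ordAt v α = 1

/-! ## The leaves -/

/-- **Leaf 14.1 CHAR**: a character of finite order factors through `ℤ/n`.  (The image of `χ` is a
finite subgroup of `ℂˣ`, hence cyclic of some order `n`, generated by `ζ`; `χ σ = ζ ^ (χ₁ σ)`.) -/
def CharFactorC : Prop :=
  ∀ (U : Subgroup GQ) (χ : ↥U →* ℂˣ),
    (∃ F : IntermediateField ℚ Qb, FiniteDimensional ℚ F ∧
      ∀ σ : ↥U, (σ : GQ) ∈ F.fixingSubgroup → χ σ = 1) →
    ∃ (n : ℕ) (χ₁ : ↥U →* Multiplicative (ZMod n)) (e : Multiplicative (ZMod n) →* ℂˣ),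
      n ≠ 0 ∧ IsLevelConstant₁ U.subtype χ₁ ∧ ∀ σ : ↥U, χ σ = e (χ₁ σ)

/-- **Leaf 14.2 ENTRY** (Artin-Schreier; = `noOrderTwo_galOf701` of helper701). -/
def EntryC : Prop :=
  ∀ (K : Type) [Field K] [NumberField K] (j : K →+* Qb), TotallyComplex K →
    NoOrderTwo (galOf j)

/-- **Leaf 14.3 EMBED** (transport): the ray statement for all embedded totally complex number
fields `K ⊆ ℚ̄` gives `ArtinRayC`.  (`K' = j K`, `e : K ≃+* K'`, `galOf j = K'.fixingSubgroup`,
`𝓞 K ≃+* 𝓞 K'`, primes, `ordAt`, residue cardinalities and `UnderPlace` correspond.) -/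
def EmbedC : Prop :=
  (∀ (K : IntermediateField ℚ Qb) [NumberField K], TotallyComplex K →
    ∀ χ : ↥K.fixingSubgroup →* ℂˣ,
      (∃ F : IntermediateField ℚ Qb, FiniteDimensional ℚ F ∧
        ∀ σ : ↥K.fixingSubgroup, (σ : GQ) ∈ F.fixingSubgroup → χ σ = 1) →
      ∃ 𝔣 : Ideal (𝓞 K), 𝔣 ≠ ⊥ ∧ EmbRayTrivial K χ 𝔣) → ArtinRayC

/-- **Leaf 14.4 FROB**: outside a finite set `B` of rational primes (the primes dividing the
discriminant of an integral generator of the level field of `χ`), `χ` has the same value on every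
Prelude Frobenius element at `P ∣ q` and on the chosen Frobenius element `FrAt681 K q P`.
(Two places of `ℚ̄` above `P` are conjugate under `Gal(ℚ̄/K)`; two Frobenius elements at the same
place differ by an element acting trivially on the residue field, which fixes the level field.) -/
def FrobIndepC : Prop :=
  ∀ (K : IntermediateField ℚ Qb) [NumberField K] (n : ℕ) [NeZero n]
    (χ : ↥K.fixingSubgroup →* Multiplicative (ZMod n)),
    IsLevelConstant₁ K.fixingSubgroup.subtype χ →
    ∃ B : Finset ℕ, ∀ (q : ℕ) [Fact q.Prime], q ∉ B → ∀ P ∈ fib681 K q,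
      ∀ σ : ↥K.fixingSubgroup, IsFrobAt (algebraMap K Qb) P (σ : GQ) →
        χ σ = χ (FrAt681 K q P)

/-- **Leaf 14.5 CONDUCTOR + SUM**: from the conclusion of `artin_of_sumInv681` (bad set `B`) and of
`FrobIndepC` (bad set `B₀`) to the ray statement with values in `ℤ/n`.
(`𝔣 = (N)`, `N = ∏_{q ∈ B ∪ B₀} q ^ e`, `q ^ (-e) < min (eps681 n q) 1`; `α ≡ 1 mod 𝔣` is a unit at
the primes above `B ∪ B₀`; `ordAt P α = ordP681 K P α`; every prime `P` lies above exactly one
rational prime.) -/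
def RayOfArtinSumC : Prop :=
  ∀ (K : IntermediateField ℚ Qb) [NumberField K] (n : ℕ) [NeZero n]
    (χ : ↥K.fixingSubgroup →* Multiplicative (ZMod n)) (B B₀ : Finset ℕ),
    (∀ α : 𝓞 K, α ≠ 0 →
      (∀ q ∈ B, ∀ [Fact q.Prime] (g : GQ),
        pn681 q g ((((α : K)) : Qb) - 1) < eps681 n q) →
      (Function.support (artinSum681 K χ B α)).Finite ∧
        ∑ᶠ q : Nat.Primes, artinSum681 K χ B α q = 0) →
    (∀ (q : ℕ) [Fact q.Prime], q ∉ B₀ → ∀ P ∈ fib681 K q,
      ∀ σ : ↥K.fixingSubgroup, IsFrobAt (algebraMap K Qb) P (σ : GQ) →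
        χ σ = χ (FrAt681 K q P)) →
    ∃ 𝔣 : Ideal (𝓞 K), 𝔣 ≠ ⊥ ∧ EmbRayTrivial K χ 𝔣

/-! ## The top -/

/-- **DICT from its leaves.** -/
theorem rayOfCycSum_of_leaves (h1 : CharFactorC) (h2 : EntryC) (h3 : EmbedC) (h4 : FrobIndepC)
    (h5 : RayOfArtinSumC) : RayOfCycSumC Iloc := by
  intro hcyc
  apply h3
  intro K _ hTC χ hfin
  obtain ⟨n, χ₁, e, hn, hlc, hχ⟩ := h1 K.fixingSubgroup χ hfin
  haveI : NeZero n := ⟨hn⟩
  have hno : NoOrderTwo K.fixingSubgroup := by
    have h := h2 K (algebraMap K Qb) hTC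
    rwa [galOf_algebraMap681] at h
  obtain ⟨B, hB⟩ := artin_of_sumInv681 K Iloc n χ₁ hlc (fun a ha R hR =>
    (hcyc K.fixingSubgroup (isOpenQ_fixingSubgroup681 K) hno n hn χ₁ hlc a ha R hR).2)
  obtain ⟨B₀, hB₀⟩ := h4 K n χ₁ hlc
  obtain ⟨𝔣, h𝔣, hray⟩ := h5 K n χ₁ B B₀ hB hB₀
  refine ⟨𝔣, h𝔣, fun frob hfrob α hα hα1 => ?_⟩
  obtain ⟨hfinS, hprod⟩ := hray frob hfrob α hα hα1
  have hfun : (fun v : HeightOneSpectrum (𝓞 K) => χ (frob v) ^ ordAt v α) =
      fun v => e (χ₁ (frob v) ^ ordAt v α) := by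
    funext v
    rw [hχ, map_pow]
  refine ⟨?_, ?_⟩
  · rw [hfun]
    refine hfinS.subset fun v hv => ?_
    rw [Function.mem_mulSupport] at hv ⊢
    intro h
    apply hv
    rw [h, map_one]
  · rw [hfun, ← MonoidHom.map_finprod e hfinS, hprod, map_one]

end Fermat.Agent.LT.CFT.H681
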