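import Fermat.Agent.S55.G.Rec.L4L6H854
import Fermat.Agent.S55.G.Rec.CupAddH496
import Fermat.Agent.S55.G.Rec.CupLocH496

/-!
# LT / tower CFT : local triviality of cup classes near `1`, ALL `n`  (helper681)

Glue pre-leaf for the passage from the reciprocity law of main (`S55.G.Rec.ReciprocitySpec`,
`∑_v inv_v (a ∪ δχ) = 0`) to the ideal-theoretic ray statement: at the finitely many bad primes
`q` (ramified or dividing `n`) the local cup class of an element `a` close to `1` vanishes.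
Main has only the tame case (`LocalRootSpec`, `q ∤ n`, `‖a - 1‖ < 1`); here `n` is arbitrary
(`q ∣ n` allowed) and the radius `ε` depends on `q` and `n` only (not on the field).

* `localRootWild681` : `∃ ε > 0`, every `a` in the fixed field of ANY subgroup `V ≤ G_{ℚ_q}` with
  `‖a - 1‖ < ε` is an `n`-th power in that fixed field.
* `lcc_pow_eq_zero681` : `lcc q V n χ (b ^ n) = 0`.
* `lcc_eq_zero_of_close681` : `‖a - 1‖ < ε → lcc q V n χ a = 0`.
* `locBr_gcc_eq_zero_of_close681` : the same for the localisation of a global cup class.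

No new definitions.
-/

set_option autoImplicit false

noncomputable section

namespace Fermat.Agent.LT.CFT.H681

open Fermat.Agent.S55.G.Rec groupCohomology

local notation "Qb" => AlgebraicClosure ℚ
local notation "GQ" => (AlgebraicClosure ℚ ≃ₐ[ℚ] AlgebraicClosure ℚ)

section Ultra

variable {K : Type*} [NormedField K]

/-- A finite set of nonzero elements is bounded below in norm by some `0 < c ≤ 1`. -/
lemma exists_pos_le_norm681 (Z : Finset K) (hZ : ∀ z ∈ Z, z ≠ 0) :
    ∃ c : ℝ, 0 < c ∧ c ≤ 1 ∧ ∀ z ∈ Z, c ≤ ‖z‖ := by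
  classical
  induction Z using Finset.induction_on with
  | empty => exact ⟨1, one_pos, le_rfl, by simp⟩
  | insert a s _ ih =>
    obtain ⟨c, hc0, hc1, hc⟩ := ih fun z hz => hZ z (Finset.mem_insert_of_mem hz)
    have ha : 0 < ‖a‖ := norm_pos_iff.mpr (hZ a (Finset.mem_insert_self a s))
    refine ⟨min c ‖a‖, lt_min hc0 ha, (min_le_left _ _).trans hc1, ?_⟩
    intro z hz
    rcases Finset.mem_insert.mp hz with rfl | hz
    · exact min_le_right _ _
    · exact (min_le_left _ _).trans (hc z hz)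

/-- Separation of the `n`-th roots of unity from `1`. -/
lemma exists_rootsOfUnity_sep681 (n : ℕ) (hn : n ≠ 0) :
    ∃ c : ℝ, 0 < c ∧ c ≤ 1 ∧ ∀ ζ : K, ζ ^ n = 1 → ‖ζ - 1‖ < c → ζ = 1 := by
  classical
  obtain ⟨c, hc0, hc1, hc⟩ := exists_pos_le_norm681
    (((Polynomial.nthRootsFinset n (1 : K)).erase 1).image fun ζ => ζ - 1) (by
      intro z hz
      obtain ⟨ζ, hζ, rfl⟩ := Finset.mem_image.mp hz
      exact sub_ne_zero.mpr (Finset.ne_of_mem_erase hζ))
  refine ⟨c, hc0, hc1, fun ζ hζ hlt => ?_⟩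
  by_contra hne
  have hmem : ζ - 1 ∈ ((Polynomial.nthRootsFinset n (1 : K)).erase 1).image fun ζ => ζ - 1 :=
    Finset.mem_image.mpr ⟨ζ, Finset.mem_erase.mpr
      ⟨hne, (Polynomial.mem_nthRootsFinset (Nat.pos_of_ne_zero hn) 1).mpr hζ⟩, rfl⟩
  exact absurd hlt (not_lt.mpr (hc _ hmem))

/-- If the norm of a product of `k` elements is `< c ^ k`, one factor has norm `< c`. -/
lemma exists_norm_lt_of_norm_prod_lt681 (c : ℝ) (hc : 0 ≤ c) (s : Multiset K)
    (h : ‖s.prod‖ < c ^ Multiset.card s) : ∃ x ∈ s, ‖x‖ < c := by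
  induction s using Multiset.induction_on with
  | empty => simp at h
  | cons a t ih =>
    rw [Multiset.prod_cons, norm_mul, Multiset.card_cons, pow_succ'] at h
    by_cases ha : ‖a‖ < c
    · exact ⟨a, Multiset.mem_cons_self a t, ha⟩
    · replace ha := not_lt.mp ha
      have ht : ‖t.prod‖ < c ^ Multiset.card t := by
        by_contra hge
        replace hge := not_lt.mp hge
        have : c * c ^ Multiset.card t ≤ ‖a‖ * ‖t.prod‖ :=
          mul_le_mul ha hge (pow_nonneg hc _) (norm_nonneg _)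
        exact absurd h (not_lt.mpr this)
      obtain ⟨x, hx, hx1⟩ := ih ht
      exact ⟨x, Multiset.mem_cons_of_mem hx, hx1⟩

/-- In an algebraically closed normed field, an element `a` with `‖a - 1‖ < c ^ n` has an
`n`-th root `b` with `‖1 - b‖ < c`. -/
lemma exists_root_close681 [IsAlgClosed K] (n : ℕ) (hn : n ≠ 0) (c : ℝ) (hc : 0 ≤ c) (a : K)
    (ha : ‖a - 1‖ < c ^ n) : ∃ b : K, b ^ n = a ∧ ‖1 - b‖ < c := by
  have hmonic : (Polynomial.X ^ n - Polynomial.C a).Monic := Polynomial.monic_X_pow_sub_C _ hn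
  have hsplits : (Polynomial.X ^ n - Polynomial.C a).Splits := IsAlgClosed.splits _
  have heval := hsplits.eval_eq_prod_roots_of_monic hmonic 1
  have he : (Polynomial.X ^ n - Polynomial.C a).eval 1 = 1 - a := by simp
  have hcard : Multiset.card ((Polynomial.X ^ n - Polynomial.C a).roots.map (1 - ·)) = n := by
    rw [Multiset.card_map, ← hsplits.natDegree_eq_card_roots,
      Polynomial.natDegree_X_pow_sub_C]
  have hlt : ‖((Polynomial.X ^ n - Polynomial.C a).roots.map (1 - ·)).prod‖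
      < c ^ Multiset.card ((Polynomial.X ^ n - Polynomial.C a).roots.map (1 - ·)) := by
    rw [hcard, ← heval, he, norm_sub_rev]
    exact ha
  obtain ⟨y, hy, hylt⟩ := exists_norm_lt_of_norm_prod_lt681 c hc _ hlt
  obtain ⟨b, hb, rfl⟩ := Multiset.mem_map.mp hy
  refine ⟨b, ?_, hylt⟩
  have := (Polynomial.mem_roots hmonic.ne_zero).mp hb
  simpa [Polynomial.IsRoot, sub_eq_zero] using this

end Ultra

section Padic

variable (q : ℕ) [Fact q.Prime]

local notation "Gq" => (PadicAlgCl q ≃ₐ[ℚ_[q]] PadicAlgCl q)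

/-- **Wild local roots**: for every `n ≠ 0` there is a radius `ε > 0`, depending on `q` and `n`
only, such that every `a` with `‖a - 1‖ < ε` in the fixed field of a subgroup `V ≤ G_{ℚ_q}` is an
`n`-th power in that fixed field. -/
theorem localRootWild681 (n : ℕ) (hn : n ≠ 0) :
    ∃ ε : ℝ, 0 < ε ∧ ∀ (V : Subgroup Gq) (a : (PadicAlgCl q)ˣ), LFixed q V a →
      ‖(a : PadicAlgCl q) - 1‖ < ε → ∃ b : (PadicAlgCl q)ˣ, LFixed q V b ∧ b ^ n = a := by
  obtain ⟨c, hc0, hc1, hsep⟩ := exists_rootsOfUnity_sep681 (K := PadicAlgCl q) n hn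
  refine ⟨c ^ n, pow_pos hc0 n, fun V a haV ha1 => ?_⟩
  obtain ⟨b, hbroot, hblt⟩ := exists_root_close681 n hn c hc0.le (a : PadicAlgCl q) ha1
  have hblt1 : ‖1 - b‖ < 1 := lt_of_lt_of_le hblt hc1
  have hbn : ‖b‖ = 1 := H854.norm_eq_one_of_norm_one_sub_lt b hblt1
  have hb0 : b ≠ 0 := by
    rintro rfl
    simp at hbn
  refine ⟨Units.mk0 b hb0, ?_, ?_⟩
  · intro τ hτ
    apply Units.ext
    show τ b = b
    have ha' : τ (a : PadicAlgCl q) = (a : PadicAlgCl q) := congrArg Units.val (haV τ hτ)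
    have h1 : (τ b / b) ^ n = 1 := by
      rw [div_pow, ← map_pow, hbroot, ha']
      exact div_self (Units.ne_zero a)
    have h2 : ‖τ b / b - 1‖ < c := by
      have h3 : τ b / b - 1 = ((1 - b) - τ (1 - b)) / b := by
        rw [map_sub, map_one]
        field_simp
        ring
      rw [h3, norm_div, hbn, div_one]
      refine lt_of_le_of_lt (H854.norm_sub_le_max_h854 _ _) (max_lt hblt ?_)
      rw [H854.norm_algEquiv_padicAlgCl]
      exact hblt
    have h4 := hsep (τ b / b) h1 h2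
    exact (div_eq_one_iff_eq hb0).mp h4
  · apply Units.ext
    rw [Units.val_pow_eq_pow_val]
    exact hbroot

variable {q}

lemma lFixed_one681 (V : Subgroup Gq) : LFixed q V 1 := fun _ _ => smul_one _

lemma lFixed_pow681 {V : Subgroup Gq} {b : (PadicAlgCl q)ˣ} (hb : LFixed q V b) (k : ℕ) :
    LFixed q V (b ^ k) := fun τ hτ => by rw [smul_pow', hb τ hτ]

lemma isLevelConstant₁_one681 (V : Subgroup Gq) (n : ℕ) :
    IsLevelConstant₁ (lHom q V) (1 : ↥V →* Multiplicative (ZMod n)) :=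
  ⟨⊥, inferInstance, fun _ _ _ => rfl⟩

/-- The cup class of the unit element vanishes. -/
lemma lcc_one_elt681 (V : Subgroup Gq) (n : ℕ) (hn : n ≠ 0) (χ : ↥V →* Multiplicative (ZMod n))
    (hχ : IsLevelConstant₁ (lHom q V) χ) : lcc q V n χ 1 = 0 := by
  have h := H496.lcc_mul_elt q V n χ 1 1 hn hχ (lFixed_one681 V) (lFixed_one681 V)
  rw [mul_one] at h
  exact left_eq_add.mp h

/-- The cup class with the trivial character vanishes. -/
lemma lcc_one_char681 (V : Subgroup Gq) (n : ℕ) (hn : n ≠ 0) (a : (PadicAlgCl q)ˣ)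
    (ha : LFixed q V a) : lcc q V n 1 a = 0 := by
  have h := H496.lcc_mul_char q V n 1 1 a hn (isLevelConstant₁_one681 V n)
    (isLevelConstant₁_one681 V n) ha
  rw [mul_one] at h
  exact left_eq_add.mp h

lemma isLevelConstant₁_pow681 {V : Subgroup Gq} {n : ℕ} {χ : ↥V →* Multiplicative (ZMod n)}
    (hχ : IsLevelConstant₁ (lHom q V) χ) (k : ℕ) : IsLevelConstant₁ (lHom q V) (χ ^ k) := by
  induction k with
  | zero =>
    rw [pow_zero]
    exact isLevelConstant₁_one681 V n
  | succ k ih =>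
    rw [pow_succ]
    exact H496.isLevelConstant₁_mul_char ih hχ

lemma lcc_pow_elt681 (V : Subgroup Gq) (n : ℕ) (hn : n ≠ 0) (χ : ↥V →* Multiplicative (ZMod n))
    (hχ : IsLevelConstant₁ (lHom q V) χ) (b : (PadicAlgCl q)ˣ) (hb : LFixed q V b) (k : ℕ) :
    lcc q V n χ (b ^ k) = k • lcc q V n χ b := by
  induction k with
  | zero => rw [pow_zero, zero_smul, lcc_one_elt681 V n hn χ hχ]
  | succ k ih =>
    rw [pow_succ, H496.lcc_mul_elt q V n χ _ _ hn hχ (lFixed_pow681 hb k) hb, ih, succ_nsmul]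

lemma lcc_pow_char681 (V : Subgroup Gq) (n : ℕ) (hn : n ≠ 0) (χ : ↥V →* Multiplicative (ZMod n))
    (hχ : IsLevelConstant₁ (lHom q V) χ) (b : (PadicAlgCl q)ˣ) (hb : LFixed q V b) (k : ℕ) :
    lcc q V n (χ ^ k) b = k • lcc q V n χ b := by
  induction k with
  | zero => rw [pow_zero, zero_smul, lcc_one_char681 V n hn b hb]
  | succ k ih =>
    rw [pow_succ, H496.lcc_mul_char q V n _ _ b hn (isLevelConstant₁_pow681 hχ k) hχ hb, ih,
      succ_nsmul]

lemma char_pow_card681 {G : Type*} [Group G] (n : ℕ) (χ : G →* Multiplicative (ZMod n)) :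
    χ ^ n = 1 := by
  ext g
  rw [MonoidHom.pow_apply, MonoidHom.one_apply]
  apply Multiplicative.toAdd.injective
  rw [toAdd_pow, toAdd_one]
  simp

/-- `n`-th powers have trivial cup classes with characters of order dividing `n`. -/
theorem lcc_pow_eq_zero681 (V : Subgroup Gq) (n : ℕ) (hn : n ≠ 0)
    (χ : ↥V →* Multiplicative (ZMod n)) (hχ : IsLevelConstant₁ (lHom q V) χ)
    (b : (PadicAlgCl q)ˣ) (hb : LFixed q V b) : lcc q V n χ (b ^ n) = 0 := by
  rw [lcc_pow_elt681 V n hn χ hχ b hb n, ← lcc_pow_char681 V n hn χ hχ b hb n,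
    char_pow_card681 n χ, lcc_one_char681 V n hn b hb]

variable (q)

/-- **Local triviality near `1`**: the local cup class `a ∪ δχ` vanishes for `‖a - 1‖ < ε`,
`ε` depending on `q` and `n` only. -/
theorem lcc_eq_zero_of_close681 (n : ℕ) (hn : n ≠ 0) :
    ∃ ε : ℝ, 0 < ε ∧ ∀ (V : Subgroup Gq) (χ : ↥V →* Multiplicative (ZMod n))
      (a : (PadicAlgCl q)ˣ), IsLevelConstant₁ (lHom q V) χ → LFixed q V a →
      ‖(a : PadicAlgCl q) - 1‖ < ε → lcc q V n χ a = 0 := by
  obtain ⟨ε, hε, h⟩ := localRootWild681 q n hn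
  refine ⟨ε, hε, fun V χ a hχ ha hlt => ?_⟩
  obtain ⟨b, hb, rfl⟩ := h V a ha hlt
  exact lcc_pow_eq_zero681 V n hn χ hχ b hb

/-- **Local triviality of global cup classes near `1`**: for `a ∈ K = ℚ̄^U` which is `ε`-close to
`1` at the place of `K` induced by `ι_q ∘ g⁻¹`, the localisation of `a ∪ δχ` at that place
vanishes; `ε` depends on `q` and `n` only. -/
theorem locBr_gcc_eq_zero_of_close681 (n : ℕ) (hn : n ≠ 0) :
    ∃ ε : ℝ, 0 < ε ∧ ∀ (g : GQ) (U : Subgroup GQ) (χ : ↥U →* Multiplicative (ZMod n)) (a : Qbˣ),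
      IsLevelConstant₁ U.subtype χ → GFixed U a →
      ‖padicEmbedding q (g⁻¹ (a : Qb)) - 1‖ < ε → locBr q g U (gcc U n χ a) = 0 := by
  obtain ⟨ε, hε, h⟩ := lcc_eq_zero_of_close681 q n hn
  refine ⟨ε, hε, fun g U χ a hχ ha hlt => ?_⟩
  obtain ⟨⟨h1, h2⟩, h3⟩ := H496.cupLoc q g U n χ a hn hχ ha
  rw [h3]
  exact h _ _ _ h1 h2 hlt

end Padic

end Fermat.Agent.LT.CFT.H681
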