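import Fermat.Agent.S55.G.Rec.ReciprocityFull
import Fermat.Agent.LT.CFT.H681.WildRoot

/-!
# LT / tower CFT : the EMBEDDED RAY FORM of the reciprocity law  (helper681)

From `∑_v inv_v (a ∪ δχ) = 0` (main: `S55.G.Rec.ReciprocitySpec`) to a statement without
Brauer groups: for an open `U ≤ G_ℚ` (`K = ℚ̄^U`), a continuous character `χ : U → ℤ/n` and
`a ∈ Kˣ` close to `1` at the finitely many bad primes,

  `∑_{q ∉ B} ∑_{r ∈ R q} ord_{(q,r)}(a) • χ(Frob_{(q,r)}) = 0`  in `ℤ/n`.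

* `zmodToCircle681 n : ZMod n →+ ℚ/ℤ`, injective.
* `IsLocalTerm681 U χ q g a t` : `t = k • χ(φ)`, `φ` a Frobenius element of the place `(q, g)` of
  `K` and `f · k = vdeg (a)`, `f` the residue degree (i.e. `k = ord_v (a)`).
* `exists_isLocalTerm681`, `invAt_eq_of_isLocalTerm681`.
* `exists_bad_primes_char681` : `χ` is unramified at all places above `q ∉ B`.
* `embRay_of_sumInv681` : the ray form from `I.sumInv U R (gcc U n χ a) = 0`.
* `embRay_odd681` : unconditional for `n = p ^ k`, `p` an odd prime (main `reciprocityFull`).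
-/

set_option autoImplicit false

noncomputable section

namespace Fermat.Agent.LT.CFT.H681

open Fermat.Agent.S55.G.Rec groupCohomology

local notation "Qb" => AlgebraicClosure ℚ
local notation "GQ" => (AlgebraicClosure ℚ ≃ₐ[ℚ] AlgebraicClosure ℚ)

/-! ## `ℤ/n → ℚ/ℤ` -/

/-- `c ↦ c / n`, `ℤ/n → ℚ/ℤ`. -/
def zmodToCircle681 (n : ℕ) [NeZero n] : ZMod n →+ AddCircle (1 : ℚ) :=
  ZMod.lift n ⟨zmultiplesHom (AddCircle (1 : ℚ)) (((1 / n : ℚ) : ℚ) : AddCircle (1 : ℚ)), by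
    have hn : (n : ℚ) ≠ 0 := Nat.cast_ne_zero.mpr (NeZero.ne n)
    show ((n : ℕ) : ℤ) • (((1 / n : ℚ) : ℚ) : AddCircle (1 : ℚ)) = 0
    rw [← AddCircle.coe_zsmul, zsmul_eq_mul]
    have : (((n : ℕ) : ℤ) : ℚ) * (1 / n) = 1 := by
      push_cast
      field_simp
    rw [this]
    exact AddCircle.coe_period 1⟩

lemma zmodToCircle681_intCast (n : ℕ) [NeZero n] (m : ℤ) :
    zmodToCircle681 n (m : ZMod n) = (((m : ℚ) / n : ℚ) : AddCircle (1 : ℚ)) := by
  unfold zmodToCircle681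
  rw [ZMod.lift_coe]
  show m • (((1 / n : ℚ) : ℚ) : AddCircle (1 : ℚ)) = _
  rw [← AddCircle.coe_zsmul, zsmul_eq_mul, mul_one_div]

lemma zmodToCircle681_apply (n : ℕ) [NeZero n] (c : ZMod n) :
    zmodToCircle681 n c = (((c.val : ℚ) / n : ℚ) : AddCircle (1 : ℚ)) := by
  have h := zmodToCircle681_intCast n (c.val : ℤ)
  rw [Int.cast_natCast, ZMod.natCast_zmod_val] at h
  rw [h]
  norm_num

lemma zmodToCircle681_zsmul (n : ℕ) [NeZero n] (k : ℤ) (c : ZMod n) :
    zmodToCircle681 n (k • c) =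
      ((((k : ℚ) * ((c.val : ℕ) : ℚ) / (n : ℚ) : ℚ)) : AddCircle (1 : ℚ)) := by
  rw [map_zsmul, zmodToCircle681_apply, ← AddCircle.coe_zsmul, zsmul_eq_mul, mul_div_assoc]

lemma zmodToCircle681_injective (n : ℕ) [NeZero n] : Function.Injective (zmodToCircle681 n) := by
  rw [injective_iff_map_eq_zero]
  intro c hc
  rw [zmodToCircle681_apply, AddCircle.coe_eq_zero_iff] at hc
  obtain ⟨m, hm⟩ := hc
  have hn : (n : ℚ) ≠ 0 := Nat.cast_ne_zero.mpr (NeZero.ne n)
  have hn0 : 0 < n := Nat.pos_of_ne_zero (NeZero.ne n)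
  have h1 : ((c.val : ℤ) : ℚ) = ((m * n : ℤ) : ℚ) := by
    push_cast
    rw [zsmul_eq_mul, mul_one] at hm
    rw [hm]
    field_simp
  have h2 : (c.val : ℤ) = m * n := by exact_mod_cast h1
  have h3 : (c.val : ℤ) < n := by exact_mod_cast ZMod.val_lt c
  have h4 : (0 : ℤ) ≤ c.val := Int.natCast_nonneg _
  have hnZ : (0 : ℤ) < n := by exact_mod_cast hn0
  have hm0 : m = 0 := by
    by_contra hne
    rcases lt_or_gt_of_ne hne with hneg | hpos
    · have : m * (n : ℤ) < 0 := mul_neg_of_neg_of_pos hneg hnZ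
      omega
    · have : (n : ℤ) ≤ m * n := le_mul_of_one_le_left hnZ.le hpos
      omega
  rw [hm0, zero_mul] at h2
  have h5 : c.val = 0 := by exact_mod_cast h2
  exact (ZMod.val_eq_zero c).mp h5

/-! ## Local terms -/

/-- `t = ord_v (a) • χ (Frob_v)` at the place `v` of `K = ℚ̄^U` induced by `ι_q ∘ g⁻¹`:
`t = k • χ (φ)` for a Frobenius element `φ` of `locSub q g U` and `vdeg (a) = f · k`,
`f` the residue degree. -/
def IsLocalTerm681 (U : Subgroup GQ) {n : ℕ} (χ : ↥U →* Multiplicative (ZMod n)) (q : ℕ)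
    [Fact q.Prime] (g : GQ) (a : Qbˣ) (t : ZMod n) : Prop :=
  ∃ (f : ℕ) (φ : ↥(locSub q g U)) (k : ℤ), IsResidueDegree q (locSub q g U) f ∧
    (∀ x : PadicAlgCl q, ‖x‖ ≤ 1 →
      ‖(φ : PadicAlgCl q ≃ₐ[ℚ_[q]] PadicAlgCl q) x - x ^ (q ^ f)‖ < 1) ∧
    vdeg q (locSub q g U) (locPushMul q g a) = f * k ∧
    t = k • chiAdd χ (locHom q g U φ)

/-- Local terms exist at every place. -/
theorem exists_isLocalTerm681 {U : Subgroup GQ} (hU : IsOpenQ U) {n : ℕ}
    (χ : ↥U →* Multiplicative (ZMod n)) (q : ℕ) [Fact q.Prime] (g : GQ) (a : Qbˣ)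
    (ha : GFixed U a) : ∃ t : ZMod n, IsLocalTerm681 U χ q g a t := by
  obtain ⟨f, φ, π, hf, hφV, hφ, -, -, hdec⟩ :=
    H931.localStructure q (locSub q g U) (H181.isOpenL_locSub q g hU)
  obtain ⟨k, u, -, -, -, hk⟩ := hdec (locPushMul q g a) (H496.lFixed_locPushMul q g U a ha)
  exact ⟨_, f, ⟨φ, hφV⟩, k, hf, hφ, hk, rfl⟩

/-- The local invariant of a cup class at an unramified place is the local term. -/
theorem inv_eq_of_isLocalTerm681 (I : LocalInvSystem) {U : Subgroup GQ} (hU : IsOpenQ U)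
    (n : ℕ) [NeZero n] (χ : ↥U →* Multiplicative (ZMod n)) (hχ : IsLevelConstant₁ U.subtype χ)
    (q : ℕ) [Fact q.Prime] (g : GQ)
    (hunr : ∀ τ : ↥(locSub q g U),
      IsInertial q (τ : PadicAlgCl q ≃ₐ[ℚ_[q]] PadicAlgCl q) → χ (locHom q g U τ) = 1)
    (a : Qbˣ) (ha : GFixed U a) (t : ZMod n) (ht : IsLocalTerm681 U χ q g a t) :
    I.inv q (locSub q g U) (locBr q g U (gcc U n χ a)) = zmodToCircle681 n t := by
  obtain ⟨f, φ, k, hf, hφ, hk, rfl⟩ := ht
  obtain ⟨⟨h1, h2⟩, h3⟩ := H496.cupLoc q g U n χ a (NeZero.ne n) hχ ha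
  rw [h3, zmodToCircle681_zsmul]
  exact unramCup I q (locSub q g U) (H181.isOpenL_locSub q g hU) n (χ.comp (locHom q g U)) h1
    hunr f hf φ hφ (locPushMul q g a) h2 k hk

/-! ## Bad primes of a character -/

/-- A continuous character of `U` is unramified at all places above almost all primes. -/
theorem exists_bad_primes_char681 (U : Subgroup GQ) {n : ℕ} (χ : ↥U →* Multiplicative (ZMod n))
    (hχ : IsLevelConstant₁ U.subtype χ) :
    ∃ B : Finset ℕ, ∀ (q : ℕ) [Fact q.Prime], q ∉ B → ∀ (g : GQ) (τ : ↥(locSub q g U)),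
      IsInertial q (τ : PadicAlgCl q ≃ₐ[ℚ_[q]] PadicAlgCl q) → χ (locHom q g U τ) = 1 := by
  obtain ⟨F₀, hF₀, h₀⟩ := hχ
  haveI := hF₀
  haveI : Algebra.IsAlgebraic ℚ Qb := AlgebraicClosure.isAlgebraic ℚ
  haveI : IsAlgClosure ℚ Qb := ⟨inferInstance, inferInstance⟩
  haveI : Normal ℚ Qb := IsAlgClosure.normal ℚ Qb
  have hle : F₀ ≤ IntermediateField.normalClosure ℚ ↥F₀ Qb :=
    IntermediateField.le_normalClosure _
  haveI : FiniteDimensional ℚ ↥(IntermediateField.normalClosure ℚ ↥F₀ Qb) :=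
    normalClosure.is_finiteDimensional ℚ _ Qb
  haveI : Normal ℚ ↥(IntermediateField.normalClosure ℚ ↥F₀ Qb) := normalClosure.normal ℚ _ Qb
  obtain ⟨B, hB⟩ := H181.exists_bad_primes_inertial (IntermediateField.normalClosure ℚ ↥F₀ Qb)
  refine ⟨B, fun q _ hq g τ hτ => ?_⟩
  have h1 := hB q hq _ hτ
  have h2 := H181.conj_mem_fixingSubgroup (IntermediateField.normalClosure ℚ ↥F₀ Qb) g h1
  have h3 : U.subtype (locHom q g U τ) ∈ F₀.fixingSubgroup :=
    IntermediateField.fixingSubgroup_antitone hle h2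
  have h4 := h₀ 1 (locHom q g U τ) h3
  rw [one_mul, map_one] at h4
  exact h4

/-! ## The embedded ray form -/

/-- The radius at the prime `q` (junk `1` if `q` is not prime). -/
def eps681 (n : ℕ) (q : ℕ) : ℝ :=
  if h : q.Prime ∧ n ≠ 0 then
    haveI : Fact q.Prime := ⟨h.1⟩
    Classical.choose (locBr_gcc_eq_zero_of_close681 q n h.2)
  else 1

lemma eps681_pos (n q : ℕ) : 0 < eps681 n q := by
  unfold eps681
  split_ifs with h
  · haveI : Fact q.Prime := ⟨h.1⟩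
    exact (Classical.choose_spec (locBr_gcc_eq_zero_of_close681 q n h.2)).1
  · exact one_pos

lemma locBr_gcc_eq_zero_of_lt_eps681 (n : ℕ) (hn : n ≠ 0) (q : ℕ) [hq : Fact q.Prime] (g : GQ)
    (U : Subgroup GQ) (χ : ↥U →* Multiplicative (ZMod n)) (a : Qbˣ)
    (hχ : IsLevelConstant₁ U.subtype χ) (ha : GFixed U a)
    (hlt : ‖padicEmbedding q (g⁻¹ (a : Qb)) - 1‖ < eps681 n q) :
    locBr q g U (gcc U n χ a) = 0 := by
  unfold eps681 at hlt
  rw [dif_pos ⟨hq.out, hn⟩] at hlt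
  exact (Classical.choose_spec (locBr_gcc_eq_zero_of_close681 q n hn)).2 g U χ a hχ ha hlt

/-- **Embedded ray form**, from the vanishing of the sum of the local invariants of `a ∪ δχ`. -/
theorem embRay_of_sumInv681 (I : LocalInvSystem) {U : Subgroup GQ} (hU : IsOpenQ U) (n : ℕ)
    [NeZero n] (χ : ↥U →* Multiplicative (ZMod n)) (hχ : IsLevelConstant₁ U.subtype χ) :
    ∃ B : Finset ℕ, ∀ a : Qbˣ, GFixed U a →
      (∀ q ∈ B, ∀ [Fact q.Prime] (g : GQ), ‖padicEmbedding q (g⁻¹ (a : Qb)) - 1‖ < eps681 n q) →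
      ∀ R : Nat.Primes → Finset GQ, I.sumInv U R (gcc U n χ a) = 0 →
      ∀ t : Nat.Primes → GQ → ZMod n,
        (∀ q : Nat.Primes, (q : ℕ) ∉ B → ∀ r ∈ R q,
          haveI : Fact (q : ℕ).Prime := ⟨q.2⟩
          IsLocalTerm681 U χ (q : ℕ) r a (t q r)) →
        (Function.support fun q : Nat.Primes =>
          ∑ r ∈ R q, if (q : ℕ) ∈ B then 0 else t q r).Finite ∧
        ∑ᶠ q : Nat.Primes, ∑ r ∈ R q, (if (q : ℕ) ∈ B then 0 else t q r) = 0 := by
  obtain ⟨B, hB⟩ := exists_bad_primes_char681 U χ hχ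
  refine ⟨B, fun a ha hclose R hsum t ht => ?_⟩
  have hn : n ≠ 0 := NeZero.ne n
  -- termwise comparison
  have hterm : ∀ (q : Nat.Primes), ∀ r ∈ R q,
      I.invAt q r U (gcc U n χ a) = zmodToCircle681 n (if (q : ℕ) ∈ B then 0 else t q r) := by
    intro q r hr
    haveI : Fact (q : ℕ).Prime := ⟨q.2⟩
    by_cases hq : (q : ℕ) ∈ B
    · rw [if_pos hq, map_zero]
      apply I.invAt_eq_zero
      exact locBr_gcc_eq_zero_of_lt_eps681 n hn (q : ℕ) r U χ a hχ ha (hclose q hq r)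
    · rw [if_neg hq]
      exact inv_eq_of_isLocalTerm681 I hU n χ hχ (q : ℕ) r (hB q hq r) a ha (t q r) (ht q hq r hr)
  have hfun : (fun q : Nat.Primes => ∑ r ∈ R q, I.invAt q r U (gcc U n χ a)) =
      fun q : Nat.Primes =>
        zmodToCircle681 n (∑ r ∈ R q, if (q : ℕ) ∈ B then 0 else t q r) := by
    funext q
    rw [map_sum]
    exact Finset.sum_congr rfl fun r hr => hterm q r hr
  have hfin : (Function.support fun q : Nat.Primes =>
      ∑ r ∈ R q, if (q : ℕ) ∈ B then 0 else t q r).Finite := by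
    refine (I.support_finite H181.supportFinite U hU R (gcc U n χ a)).subset ?_
    intro q hq
    rw [Function.mem_support] at hq ⊢
    rw [congrFun hfun q]
    intro h0
    exact hq (zmodToCircle681_injective n (h0.trans (map_zero _).symm))
  refine ⟨hfin, ?_⟩
  apply zmodToCircle681_injective n
  rw [map_zero, AddMonoidHom.map_finsum _ hfin]
  have : (fun q : Nat.Primes =>
      zmodToCircle681 n (∑ r ∈ R q, if (q : ℕ) ∈ B then 0 else t q r)) =
      fun q : Nat.Primes => ∑ r ∈ R q, I.invAt q r U (gcc U n χ a) := hfun.symm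
  rw [this]
  exact hsum

/-- `a ∪ δχ` has `n`-torsion. -/
lemma gcc_torsion681 (U : Subgroup GQ) (n : ℕ) (hn : n ≠ 0) (χ : ↥U →* Multiplicative (ZMod n))
    (hχ : IsLevelConstant₁ U.subtype χ) (a : Qbˣ) (ha : GFixed U a) :
    n • gcc U n χ a = 0 := by
  have hone : IsLevelConstant₁ U.subtype (1 : ↥U →* Multiplicative (ZMod n)) :=
    ⟨⊥, inferInstance, fun _ _ _ => rfl⟩
  have h1 : gcc U n 1 a = 0 := by
    have h := H496.gcc_mul_char U n 1 1 a hn hone hone ha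
    rw [mul_one] at h
    exact left_eq_add.mp h
  have hpow : ∀ k : ℕ, IsLevelConstant₁ U.subtype (χ ^ k : ↥U →* Multiplicative (ZMod n)) ∧
      gcc U n (χ ^ k) a = k • gcc U n χ a := by
    intro k
    induction k with
    | zero =>
      rw [pow_zero, zero_smul]
      exact ⟨hone, h1⟩
    | succ k ih =>
      rw [pow_succ]
      refine ⟨H496.isLevelConstant₁_mul_char ih.1 hχ, ?_⟩
      rw [H496.gcc_mul_char U n _ _ a hn ih.1 hχ ha, ih.2, succ_nsmul]
  rw [← (hpow n).2, char_pow_card681 n χ, h1]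

/-- **Embedded ray form, odd prime powers** (unconditional: main `reciprocityFull`). -/
theorem embRay_odd681 (I : LocalInvSystem) (p : ℕ) [Fact p.Prime] (hp : p ≠ 2) (k : ℕ)
    {U : Subgroup GQ} (hU : IsOpenQ U) (χ : ↥U →* Multiplicative (ZMod (p ^ k)))
    (hχ : IsLevelConstant₁ U.subtype χ) :
    ∃ B : Finset ℕ, ∀ a : Qbˣ, GFixed U a →
      (∀ q ∈ B, ∀ [Fact q.Prime] (g : GQ),
        ‖padicEmbedding q (g⁻¹ (a : Qb)) - 1‖ < eps681 (p ^ k) q) →
      ∀ R : Nat.Primes → Finset GQ, IsPlaceReps U R →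
      ∀ t : Nat.Primes → GQ → ZMod (p ^ k),
        (∀ q : Nat.Primes, (q : ℕ) ∉ B → ∀ r ∈ R q,
          haveI : Fact (q : ℕ).Prime := ⟨q.2⟩
          IsLocalTerm681 U χ (q : ℕ) r a (t q r)) →
        (Function.support fun q : Nat.Primes =>
          ∑ r ∈ R q, if (q : ℕ) ∈ B then 0 else t q r).Finite ∧
        ∑ᶠ q : Nat.Primes, ∑ r ∈ R q, (if (q : ℕ) ∈ B then 0 else t q r) = 0 := by
  haveI : NeZero (p ^ k) := ⟨pow_ne_zero k (Fact.out : p.Prime).ne_zero⟩
  obtain ⟨B, hB⟩ := embRay_of_sumInv681 I hU (p ^ k) χ hχ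
  refine ⟨B, fun a ha hclose R hR t ht => hB a ha hclose R ?_ t ht⟩
  exact (reciprocityFull I p hp U hU (gcc U (p ^ k) χ a)
    ⟨k, gcc_torsion681 U (p ^ k) (NeZero.ne _) χ hχ a ha⟩ R hR).2

end Fermat.Agent.LT.CFT.H681
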